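/-
S21 project, module (E0): a maximum principle on `Γ₀(N) \ ℍ`.

A holomorphic function `ψ` on the upper half plane which is `Γ₀(N)`-invariant up to purely
imaginary additive constants and has a limit at every cusp is constant.
-/
import Mathlib

set_option autoImplicit false

namespace Fermat.Agent.S21x

open UpperHalfPlane Complex Filter Topology Function ModularGroup
open scoped MatrixGroups Real Manifold Modular

/-- The filter `comap im atTop` on `ℂ` used by `Function.Periodic.cuspFunction`. -/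
local notation "I∞" => comap Complex.im atTop
local notation "𝕢" => Periodic.qParam

/-- translation by a natural number is the action of a power of `T`. -/
theorem mp_T_pow_smul (n : ℕ) (w : ℍ) : (T ^ n : SL(2, ℤ)) • w = ((n : ℝ) +ᵥ w) := by
  apply UpperHalfPlane.ext
  have := ModularGroup.coe_T_zpow_smul_eq (z := w) (n := (n : ℤ))
  rw [zpow_natCast] at this
  rw [this, UpperHalfPlane.coe_vadd]
  push_cast
  ring

/-- `δ T^N δ⁻¹ ∈ Γ₀(N)`. -/
theorem mp_conj_T_pow_mem (N : ℕ) (δ : SL(2, ℤ)) :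
    δ * T ^ N * δ⁻¹ ∈ CongruenceSubgroup.Gamma0 N := by
  have h1 : (T ^ N : SL(2, ℤ)) ∈ CongruenceSubgroup.Gamma N := by
    have := CongruenceSubgroup.ModularGroup_T_pow_mem_Gamma N N (dvd_refl _)
    simpa using this
  have h2 : δ * T ^ N * δ⁻¹ ∈ CongruenceSubgroup.Gamma N :=
    (CongruenceSubgroup.Gamma_normal N).conj_mem _ h1 δ
  rw [CongruenceSubgroup.Gamma_mem] at h2
  rw [CongruenceSubgroup.Gamma0_mem]
  exact h2.2.2.1

/-- composition with a Möbius transformation preserves holomorphy -/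
theorem mp_mdiff_comp_smul {ψ : ℍ → ℂ} (hψ : MDiff ψ) (δ : SL(2, ℤ)) :
    MDiff (fun w : ℍ => ψ (δ • w)) := by
  have h : MDiff (fun τ : ℍ ↦ (δ : GL (Fin 2) ℝ) • τ) :=
    mdifferentiable_smul (by simp)
  exact hψ.comp h

/-- A holomorphic function on `ℍ` whose exponential is constant is constant. -/
theorem mp_const_of_exp_const {ψ : ℍ → ℂ} (hψ : MDiff ψ) (C : ℂ)
    (h : ∀ z : ℍ, Complex.exp (ψ z) = C) : ∃ c₀ : ℂ, ∀ z : ℍ, ψ z = c₀ := by
  set U : Set ℂ := {z | 0 < z.im} with hU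
  have hUo : IsOpen U := isOpen_lt continuous_const Complex.continuous_im
  have hUc : IsPreconnected U := (convex_halfSpace_im_gt 0).isPreconnected
  have hd : DifferentiableOn ℂ (ψ ∘ ofComplex) U := mdifferentiable_iff.mp hψ
  have hd' : U.EqOn (deriv (ψ ∘ ofComplex)) 0 := by
    intro z hz
    have hz' : DifferentiableAt ℂ (ψ ∘ ofComplex) z := (hd z hz).differentiableAt (hUo.mem_nhds hz)
    have h1 : HasDerivAt (fun w => Complex.exp ((ψ ∘ ofComplex) w))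
        (Complex.exp ((ψ ∘ ofComplex) z) * deriv (ψ ∘ ofComplex) z) z :=
      hz'.hasDerivAt.cexp
    have h2 : (fun w => Complex.exp ((ψ ∘ ofComplex) w)) =ᶠ[𝓝 z] fun _ => C := by
      filter_upwards [hUo.mem_nhds hz] with w hw
      simp only [comp_apply]
      exact h _
    have h3 : HasDerivAt (fun _ : ℂ => C) (Complex.exp ((ψ ∘ ofComplex) z) *
        deriv (ψ ∘ ofComplex) z) z := h1.congr_of_eventuallyEq h2.symm
    have h4 := h3.unique (hasDerivAt_const z C)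
    have := mul_eq_zero.mp h4
    rcases this with h5 | h5
    · exact absurd h5 (Complex.exp_ne_zero _)
    · simpa using h5
  obtain ⟨a, ha⟩ := hUo.exists_is_const_of_deriv_eq_zero hUc hd hd'
  refine ⟨a, fun z => ?_⟩
  have := ha (z : ℂ) z.im_pos
  simpa using this

/-- translation tends to `i∞`. -/
theorem mp_tendsto_vadd (x : ℝ) : Tendsto (fun w : ℍ => x +ᵥ w) atImInfty atImInfty := by
  rw [atImInfty, tendsto_comap_iff]
  have : (UpperHalfPlane.im ∘ fun w : ℍ => x +ᵥ w) = UpperHalfPlane.im := by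
    funext w; simp [UpperHalfPlane.vadd_im]
  rw [this]
  exact tendsto_comap

/-- Exact `N`-periodicity of `ψ ∘ δ` from invariance up to constants plus existence of the
limit at the cusp. -/
theorem mp_periodic (N : ℕ) (ψ : ℍ → ℂ)
    (hinv : ∀ γ ∈ CongruenceSubgroup.Gamma0 N, ∃ c : ℂ, ∀ z : ℍ, ψ (γ • z) = ψ z + c)
    (δ : SL(2, ℤ)) (L : ℂ) (hL : Tendsto (fun w : ℍ => ψ (δ • w)) atImInfty (𝓝 L)) (w : ℍ) :
    ψ (δ • ((N : ℝ) +ᵥ w)) = ψ (δ • w) := by
  obtain ⟨c, hc⟩ := hinv _ (mp_conj_T_pow_mem N δ)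
  have key : ∀ w : ℍ, ψ (δ • ((N : ℝ) +ᵥ w)) = ψ (δ • w) + c := by
    intro w
    rw [← mp_T_pow_smul, ← hc (δ • w)]
    congr 1
    rw [← mul_smul, ← mul_smul]
    congr 1
    group
  have h1 : Tendsto (fun w : ℍ => ψ (δ • ((N : ℝ) +ᵥ w))) atImInfty (𝓝 L) :=
    hL.comp (mp_tendsto_vadd N)
  have h2 : Tendsto (fun w : ℍ => ψ (δ • ((N : ℝ) +ᵥ w))) atImInfty (𝓝 (L + c)) := by
    have := hL.add_const c
    refine this.congr (fun w => (key w).symm)
  have h3 : L = L + c := tendsto_nhds_unique h1 h2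
  have hc0 : c = 0 := by
    have := h3.symm
    simpa using this
  rw [key w, hc0, add_zero]

/-- periodicity as a function on `ℂ`. -/
theorem mp_periodic_comp_ofComplex (N : ℕ) (f : ℍ → ℂ)
    (hf : ∀ w : ℍ, f ((N : ℝ) +ᵥ w) = f w) : Periodic (f ∘ ofComplex) (N : ℝ) := by
  intro w
  by_cases hw : 0 < w.im
  · have hw' : 0 < (w + (N : ℝ)).im := by simpa using hw
    simp only [comp_apply, ofComplex_apply_of_im_pos hw', ofComplex_apply_of_im_pos hw]
    rw [← hf ⟨w, hw⟩]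
    congr 1
    ext
    simp [add_comm]
  · have hw0 : w.im ≤ 0 := not_lt.mp hw
    have hw' : (w + (N : ℝ)).im ≤ 0 := by simpa using hw0
    simp only [comp_apply]
    rw [ofComplex_apply_of_im_nonpos hw', ofComplex_apply_of_im_nonpos hw0]


/-- **Maximum principle on `Γ₀(N) \ ℍ`**, core form.  A holomorphic function on `ℍ` whose real
part is `Γ₀(N)`-invariant, such that `ψ ∘ δ` is `N`-periodic and has a limit at `i∞` for every
`δ ∈ SL(2, ℤ)`, is constant. -/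
theorem mp_const_core (N : ℕ) [NeZero N] (ψ : ℍ → ℂ) (hψ : MDiff ψ)
    (hinv : ∀ γ ∈ CongruenceSubgroup.Gamma0 N, ∀ z : ℍ, (ψ (γ • z)).re = (ψ z).re)
    (hper : ∀ δ : SL(2, ℤ), ∀ z : ℍ, ψ (δ • ((N : ℝ) +ᵥ z)) = ψ (δ • z))
    (hcusp : ∀ δ : SL(2, ℤ), ∃ L : ℂ, Tendsto (fun w : ℍ => ψ (δ • w)) atImInfty (𝓝 L)) :
    ∃ c₀ : ℂ, ∀ z, ψ z = c₀ := by
  have hN : (0 : ℝ) < N := Nat.cast_pos.mpr (NeZero.pos N)
  -- the functions ψ ∘ δ
  set f : SL(2, ℤ) → ℍ → ℂ := fun δ w => ψ (δ • w) with hf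
  have hfd : ∀ δ, MDiff (f δ) := fun δ => mp_mdiff_comp_smul hψ δ
  have hfper : ∀ δ, Periodic (f δ ∘ ofComplex) (N : ℝ) := fun δ =>
    mp_periodic_comp_ofComplex N (f δ) (fun w => hper δ w)
  have hfbdd : ∀ δ, IsBoundedAtImInfty (f δ) := by
    intro δ
    obtain ⟨L, hL⟩ := hcusp δ
    exact hL.isBigO_one ℝ
  set Ψ : SL(2, ℤ) → ℂ → ℂ := fun δ => UpperHalfPlane.cuspFunction N (f δ) with hΨ
  have hΨeq : ∀ δ (w : ℍ), Ψ δ (𝕢 N w) = ψ (δ • w) := fun δ w =>
    UpperHalfPlane.eq_cuspFunction w hN.ne' (hfper δ)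
  have hΨd : ∀ δ, DifferentiableOn ℂ (Ψ δ) (Metric.ball 0 1) := fun δ =>
    UpperHalfPlane.differentiableOn_cuspFunction_ball hN (hfper δ) (hfd δ) (hfbdd δ)
  -- compact set
  set r : ℝ := Real.exp (-π / N) with hr
  have hr1 : r < 1 := by
    rw [hr, Real.exp_lt_one_iff]
    exact div_neg_of_neg_of_pos (neg_lt_zero.mpr Real.pi_pos) hN
  have hr0 : 0 ≤ r := (Real.exp_pos _).le
  set K : Set ℂ := Metric.closedBall 0 r with hK
  have hKball : K ⊆ Metric.ball 0 1 := Metric.closedBall_subset_ball hr1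
  have hKc : IsCompact K := isCompact_closedBall 0 r
  have hK0 : (0 : ℂ) ∈ K := Metric.mem_closedBall_self hr0
  have hfdK : ∀ w : ℍ, w ∈ 𝒟 → 𝕢 N w ∈ K := by
    intro w hw
    rw [hK, mem_closedBall_zero_iff, Periodic.norm_qParam, hr]
    apply Real.exp_le_exp.mpr
    have h3 := three_le_four_mul_im_sq_of_mem_fd hw
    have him : (1 : ℝ) / 2 ≤ w.im := by nlinarith [w.im_pos]
    have him' : (w : ℂ).im = w.im := rfl
    rw [him']
    apply div_le_div_of_nonneg_right _ hN.le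
    nlinarith [Real.pi_pos]
  -- maximisers on K
  have hmax : ∀ δ, ∃ x ∈ K, IsMaxOn (fun p => (Ψ δ p).re) K x := fun δ =>
    hKc.exists_isMaxOn ⟨0, hK0⟩
      (Complex.continuous_re.comp_continuousOn ((hΨd δ).continuousOn.mono hKball))
  choose x hxK hxmax using hmax
  -- finite set of representatives
  have : Finite (SL(2, ℤ) ⧸ CongruenceSubgroup.Gamma0 N) :=
    Subgroup.finite_quotient_of_finiteIndex
  let rep : SL(2, ℤ) ⧸ CongruenceSubgroup.Gamma0 N → SL(2, ℤ) := fun q => (Quotient.out q)⁻¹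
  obtain ⟨q₀, hq₀⟩ := Finite.exists_max (fun q => (Ψ (rep q) (x (rep q))).re)
  set δ₀ := rep q₀ with hδ₀
  set M := (Ψ δ₀ (x δ₀)).re with hM
  -- key bound
  have hbound : ∀ z : ℍ, (ψ z).re ≤ M := by
    intro z
    obtain ⟨g, hg⟩ := exists_smul_mem_fd z
    set q : SL(2, ℤ) ⧸ CongruenceSubgroup.Gamma0 N := QuotientGroup.mk g with hq
    obtain ⟨γ, hγ⟩ := QuotientGroup.mk_out_eq_mul (CongruenceSubgroup.Gamma0 N) g
    have hz : (γ : SL(2, ℤ)) • (rep q • (g • z)) = z := by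
      rw [← mul_smul, ← mul_smul]
      have : (γ : SL(2, ℤ)) * rep q * g = 1 := by
        simp only [rep, hq, hγ]
        group
      rw [this, one_smul]
    have h1 : (ψ z).re = (ψ (rep q • (g • z))).re := by
      rw [← hinv γ γ.2 (rep q • (g • z)), hz]
    calc (ψ z).re = (ψ (rep q • (g • z))).re := h1
      _ = (Ψ (rep q) (𝕢 N ((g • z : ℍ) : ℂ))).re := by rw [hΨeq]
      _ ≤ (Ψ (rep q) (x (rep q))).re := hxmax (rep q) (hfdK _ hg)
      _ ≤ M := hq₀ q
  have hball : ∀ p ∈ Metric.ball (0 : ℂ) 1, (Ψ δ₀ p).re ≤ M := by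
    intro p hp
    by_cases hp0 : p = 0
    · subst hp0
      exact hxmax δ₀ hK0
    · have him : 0 < (Periodic.invQParam N p).im :=
        Periodic.im_invQParam_pos_of_norm_lt_one hN (mem_ball_zero_iff.mp hp) hp0
      have : Ψ δ₀ p = ψ (δ₀ • (⟨_, him⟩ : ℍ)) := by
        rw [← hΨeq δ₀ ⟨_, him⟩]
        congr 1
        exact (Periodic.qParam_right_inv hN.ne' hp0).symm
      rw [this]
      exact hbound _
  have hxball : x δ₀ ∈ Metric.ball (0 : ℂ) 1 := hKball (hxK δ₀)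
  have hFd : DifferentiableOn ℂ (fun p => Complex.exp (Ψ δ₀ p)) (Metric.ball 0 1) :=
    (hΨd δ₀).cexp
  have hFmax : IsMaxOn (norm ∘ fun p => Complex.exp (Ψ δ₀ p)) (Metric.ball 0 1) (x δ₀) := by
    intro p hp
    simp only [comp_apply, Complex.norm_exp]
    exact Real.exp_le_exp.mpr (hball p hp)
  have hEq := Complex.eqOn_of_isPreconnected_of_isMaxOn_norm
    (convex_ball (0 : ℂ) 1).isPreconnected Metric.isOpen_ball hFd hxball hFmax
  -- conclude
  apply mp_const_of_exp_const hψ (Complex.exp (Ψ δ₀ (x δ₀)))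
  intro z
  have hz : z = δ₀ • (δ₀⁻¹ • z) := by simp
  rw [hz, ← hΨeq δ₀ (δ₀⁻¹ • z)]
  exact hEq (mem_ball_zero_iff.mpr (Periodic.norm_qParam_lt_one hN (δ₀⁻¹ • z).im_pos))

/-- (E0), exact `Spec` shape. -/
theorem eq_const_of_re_invariant (N : ℕ) [NeZero N] (G : ℍ → ℂ)
    (hG : ∀ z : ℍ, DifferentiableAt ℂ (G ∘ ofComplex) (z : ℂ))
    (hinv : ∀ γ ∈ CongruenceSubgroup.Gamma0 N, ∀ z : ℍ, (G (γ • z)).re = (G z).re)
    (hper : ∀ δ : SL(2, ℤ), ∀ z : ℍ, G (δ • ((N : ℝ) +ᵥ z)) = G (δ • z))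
    (hlim : ∀ δ : SL(2, ℤ), ∃ L : ℂ, Filter.Tendsto (fun w : ℍ => G (δ • w)) atImInfty (nhds L)) :
    ∀ z w : ℍ, G z = G w := by
  have hGm : MDiff G := by
    rw [mdifferentiable_iff]
    intro z hz
    exact (hG ⟨z, hz⟩).differentiableWithinAt
  obtain ⟨c₀, hc₀⟩ := mp_const_core N G hGm hinv hper hlim
  intro z w
  rw [hc₀ z, hc₀ w]

/-- **Maximum principle on `Γ₀(N) \ ℍ`**, variant: a holomorphic function on `ℍ` which is
invariant under `Γ₀(N)` up to purely imaginary additive constants, and which has a limit at every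
cusp, is constant (periodicity of `ψ ∘ δ` is derived). -/
theorem mp_const_of_invariant (N : ℕ) [NeZero N] (ψ : ℍ → ℂ) (hψ : MDiff ψ)
    (hinv : ∀ γ ∈ CongruenceSubgroup.Gamma0 N,
      ∃ c : ℂ, c.re = 0 ∧ ∀ z : ℍ, ψ (γ • z) = ψ z + c)
    (hcusp : ∀ δ : SL(2, ℤ), ∃ L : ℂ, Tendsto (fun w : ℍ => ψ (δ • w)) atImInfty (𝓝 L)) :
    ∃ c₀ : ℂ, ∀ z, ψ z = c₀ := by
  have hinv' : ∀ γ ∈ CongruenceSubgroup.Gamma0 N, ∃ c : ℂ, ∀ z : ℍ, ψ (γ • z) = ψ z + c := by
    intro γ hγ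
    obtain ⟨c, _, hc⟩ := hinv γ hγ
    exact ⟨c, hc⟩
  refine mp_const_core N ψ hψ ?_ ?_ hcusp
  · intro γ hγ z
    obtain ⟨c, hc0, hc⟩ := hinv γ hγ
    rw [hc z, Complex.add_re, hc0, add_zero]
  · intro δ z
    obtain ⟨L, hL⟩ := hcusp δ
    exact mp_periodic N ψ hinv' δ L hL z

end Fermat.Agent.S21x
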