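/-
S21 helper library (Eichler-Shimura isomorphism for `periodHomPair`), core definitions shared by
all `S21x` files.  Captain: helper31.  See table `s21_plan` and `Fermat/Agent/S21x/Spec.lean`.
-/
import Mathlib
import Fermat.Prelude.Def_ModularCurve_PeriodHomPair
import Fermat.Prelude.Def_ModularCurve_GenusNumerics
import Fermat.Agent.S22x.Defs

set_option autoImplicit false

namespace Fermat.Agent.S21x

open UpperHalfPlane CongruenceSubgroup
open scoped MatrixGroups Real

/-- The normalised primitive of a weight two cusp form: `(2πi)⁻¹` times the Eichler integral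
(Mathlib's `D = (2πi)⁻¹ d/dz` and `D (eichler 1 f) = f`, so `d/dz (prim f) = f`;
`prim f → 0` at `i∞`). -/
noncomputable def prim {N : ℕ} (f : CuspForm (Gamma0 N) 2) : ℍ → ℂ :=
  fun z => (2 * (π : ℂ) * Complex.I)⁻¹ * S22x.eichler 1 (⇑f) z

/-- The period of `f` along `γ` (base point `i`). -/
noncomputable def per {N : ℕ} (f : CuspForm (Gamma0 N) 2) (γ : SL(2, ℤ)) : ℂ :=
  prim f (γ • UpperHalfPlane.I) - prim f UpperHalfPlane.I

/-! ### Shared notation for the dimension count (module F and final numerics);
shapes are those of `Fermat/Agent/S24x/Comb*.lean`. -/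

/-- The coset space `SL(2,ℤ) ⧸ Γ₀(N)` with Mathlib's left action of `SL(2,ℤ)`. -/
abbrev XN (N : ℕ) : Type := SL(2, ℤ) ⧸ Gamma0 N

/-- number of cosets -/
noncomputable def muN (N : ℕ) : ℕ := Nat.card (XN N)

/-- number of cosets fixed by `S` -/
noncomputable def fixS (N : ℕ) : ℕ := Nat.card (MulAction.fixedBy (XN N) ModularGroup.S)

/-- number of cosets fixed by `S * T` -/
noncomputable def fixU (N : ℕ) : ℕ :=
  Nat.card (MulAction.fixedBy (XN N) (ModularGroup.S * ModularGroup.T))

/-- number of orbits of `⟨T⟩` -/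
noncomputable def orbT (N : ℕ) : ℕ :=
  Nat.card (MulAction.orbitRel.Quotient (Subgroup.zpowers ModularGroup.T) (XN N))

end Fermat.Agent.S21x
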