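/-
S21 project, module A (`Prim.lean`): the normalised primitive `prim f` of a weight two cusp form
for `Γ₀(N)` is an equivariant primitive in the sense of the Prelude
(`ModularCurve.HasEquivariantPrimitive`).  Built on the landed `S22x` Eichler-integral API.
-/
import Fermat.Agent.S21x.Defs
import Fermat.Agent.S22x.Cocycle
import Fermat.Agent.S22x.SeparationCore

set_option autoImplicit false

open UpperHalfPlane CongruenceSubgroup Filter Topology ModularCurve ModularCurve.Period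
open Matrix.SpecialLinearGroup
open scoped MatrixGroups Real Manifold ModularForm

namespace Fermat.Agent.S21x

open Derivative

variable {N : ℕ} [NeZero N]

/-- the constant `2πi` is nonzero -/
theorem pa_two_pi_I_ne_zero : (2 * (π : ℂ) * Complex.I) ≠ 0 := by
  simp [Real.pi_ne_zero]

theorem pa_isCuspFnAll (f : CuspForm (Gamma0 N) 2) : S22x.IsCuspFnAll 2 (⇑f) :=
  S22x.isCuspFnAll_cuspForm f

theorem pa_isCuspFnAll' (f : CuspForm (Gamma0 N) 2) : S22x.IsCuspFnAll (((0 : ℕ) : ℤ) + 2) (⇑f) := by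
  have h : (((0 : ℕ) : ℤ) + 2) = 2 := by norm_num
  rw [h]
  exact pa_isCuspFnAll f

theorem pa_isCuspFn (f : CuspForm (Gamma0 N) 2) : S22x.IsCuspFn (⇑f) :=
  (pa_isCuspFnAll f).isCuspFn

omit [NeZero N] in
theorem prim_eq (f : CuspForm (Gamma0 N) 2) :
    prim f = (2 * (π : ℂ) * Complex.I)⁻¹ • S22x.eichler 1 (⇑f) := by
  funext z
  simp [prim]

theorem prim_mdiff (f : CuspForm (Gamma0 N) 2) : MDiff (prim f) := by
  rw [prim_eq]
  exact (S22x.eichler_spec (pa_isCuspFn f) 1).1.const_smul _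

theorem prim_hasDerivAt (f : CuspForm (Gamma0 N) 2) (τ : ℍ) :
    HasDerivAt (prim f ∘ ofComplex) (f τ) (τ : ℂ) := by
  obtain ⟨hE1, -, hE3⟩ := S22x.eichler_spec (pa_isCuspFn f) 1
  have hd : DifferentiableAt ℂ (S22x.eichler 1 (⇑f) ∘ ofComplex) (τ : ℂ) :=
    (UpperHalfPlane.mdifferentiable_iff.mp hE1).differentiableAt
      (isOpen_upperHalfPlaneSet.mem_nhds τ.2)
  have h1 := hd.hasDerivAt
  have h2 : (2 * (π : ℂ) * Complex.I)⁻¹ * deriv (S22x.eichler 1 (⇑f) ∘ ofComplex) (τ : ℂ) = f τ := by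
    have := congrFun hE3 τ
    simpa [normalizedDerivOfComplex] using this
  have h3 := h1.const_mul (2 * (π : ℂ) * Complex.I)⁻¹
  rw [h2] at h3
  exact h3

theorem prim_tendsto_zero (f : CuspForm (Gamma0 N) 2) : Tendsto (prim f) atImInfty (𝓝 0) := by
  obtain ⟨-, hE2, -⟩ := S22x.eichler_spec (pa_isCuspFn f) 1
  have h : Tendsto (fun z => (2 * (π : ℂ) * Complex.I)⁻¹ * S22x.eichler 1 (⇑f) z) atImInfty
      (𝓝 ((2 * (π : ℂ) * Complex.I)⁻¹ * 0)) := Filter.Tendsto.const_mul _ hE2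
  rw [mul_zero] at h
  exact h

theorem prim_add (f g : CuspForm (Gamma0 N) 2) : prim (f + g) = prim f + prim g := by
  rw [prim_eq, prim_eq, prim_eq]
  have h : (⇑(f + g) : ℍ → ℂ) = ⇑f + ⇑g := by
    funext z; simp
  rw [h, S22x.eichler_add (pa_isCuspFn f) (pa_isCuspFn g) 1, smul_add]

theorem prim_smul (c : ℂ) (f : CuspForm (Gamma0 N) 2) : prim (c • f) = c • prim f := by
  rw [prim_eq, prim_eq]
  have h : (⇑(c • f) : ℍ → ℂ) = c • ⇑f := by
    funext z; simp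
  rw [h, S22x.eichler_smul (pa_isCuspFn f) c 1, smul_comm]

omit [NeZero N] in
/-- the period function of weight `0` at `g = mapGL δ`, spelled out. -/
theorem pa_rhoFn_apply (f : CuspForm (Gamma0 N) 2) (δ : SL(2, ℤ)) (z : ℍ) :
    S22x.rhoFn 0 (mapGL ℝ δ) (⇑f) z =
      S22x.eichler 1 (⇑f) (δ • z) -
        S22x.eichler 1 ((⇑f) ∣[(((0 : ℕ) : ℤ) + 2)] (mapGL ℝ δ : GL (Fin 2) ℝ)) z := by
  simp only [S22x.rhoFn, S22x.act, Pi.sub_apply, pow_zero, one_mul, zero_add]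
  rfl

/-- the period function of weight `0` is constant. -/
theorem pa_exists_const (f : CuspForm (Gamma0 N) 2) (δ : SL(2, ℤ)) :
    ∃ a : ℂ, ∀ z : ℍ, S22x.rhoFn 0 (mapGL ℝ δ) (⇑f) z = a := by
  obtain ⟨p, hp, hev⟩ := S22x.rhoFn_eq_poly 0 (pa_isCuspFnAll' f) (S22x.sep_mapGL_mem_M2pos δ)
  have hp0 : p = Polynomial.C (p.coeff 0) :=
    Polynomial.eq_C_of_natDegree_le_zero hp
  refine ⟨p.coeff 0, fun z => ?_⟩
  rw [hev z, hp0]
  simp

omit [NeZero N] in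
theorem pa_slash_eq (f : CuspForm (Gamma0 N) 2) {γ : SL(2, ℤ)} (hγ : γ ∈ Gamma0 N) :
    (⇑f) ∣[(((0 : ℕ) : ℤ) + 2)] (mapGL ℝ γ : GL (Fin 2) ℝ) = ⇑f := by
  have h : (((0 : ℕ) : ℤ) + 2) = 2 := by norm_num
  rw [h]
  exact SlashInvariantFormClass.slash_action_eq f _ (Subgroup.mem_map_of_mem _ hγ)

/-- equivariance for the Eichler integral itself. -/
theorem pa_eichler_smul_sub (f : CuspForm (Gamma0 N) 2) {γ : SL(2, ℤ)} (hγ : γ ∈ Gamma0 N) :
    ∃ a : ℂ, ∀ z : ℍ, S22x.eichler 1 (⇑f) (γ • z) - S22x.eichler 1 (⇑f) z = a := by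
  obtain ⟨a, ha⟩ := pa_exists_const f γ
  refine ⟨a, fun z => ?_⟩
  have := ha z
  rw [pa_rhoFn_apply, pa_slash_eq f hγ] at this
  exact this

/-- equivariance: `prim f (γ z) - prim f z` does not depend on `z`, for `γ ∈ Γ₀(N)`. -/
theorem prim_smul_sub (f : CuspForm (Gamma0 N) 2) {γ : SL(2, ℤ)} (hγ : γ ∈ Gamma0 N) (z : ℍ) :
    prim f (γ • z) - prim f z = per f γ := by
  obtain ⟨a, ha⟩ := pa_eichler_smul_sub f hγ
  have h1 : ∀ w : ℍ, prim f (γ • w) - prim f w = (2 * (π : ℂ) * Complex.I)⁻¹ * a := by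
    intro w
    simp only [prim]
    rw [← mul_sub, ha w]
  rw [per, h1 z, h1 UpperHalfPlane.I]

/-- limits at all cusps. -/
theorem prim_tendsto_cusp (f : CuspForm (Gamma0 N) 2) (δ : SL(2, ℤ)) :
    ∃ L : ℂ, Tendsto (fun w : ℍ => prim f (δ • w)) atImInfty (𝓝 L) := by
  obtain ⟨a, ha⟩ := pa_exists_const f δ
  have hcf : S22x.IsCuspFn ((⇑f) ∣[(((0 : ℕ) : ℤ) + 2)] (mapGL ℝ δ : GL (Fin 2) ℝ)) :=
    pa_isCuspFnAll' f _ (S22x.sep_mapGL_mem_M2pos δ)
  obtain ⟨-, hE2, -⟩ := S22x.eichler_spec hcf 1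
  refine ⟨(2 * (π : ℂ) * Complex.I)⁻¹ * (a + 0), ?_⟩
  have h1 : ∀ w : ℍ, prim f (δ • w) = (2 * (π : ℂ) * Complex.I)⁻¹ *
      (a + S22x.eichler 1 ((⇑f) ∣[(((0 : ℕ) : ℤ) + 2)] (mapGL ℝ δ : GL (Fin 2) ℝ)) w) := by
    intro w
    have := ha w
    rw [pa_rhoFn_apply] at this
    simp only [prim]
    rw [← this]
    ring
  simp_rw [h1]
  exact Filter.Tendsto.const_mul _ (tendsto_const_nhds.add hE2)

theorem hasEquivariantPrimitive_prim (f : CuspForm (Gamma0 N) 2) :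
    HasEquivariantPrimitive N f (prim f) :=
  ⟨prim_hasDerivAt f, prim_tendsto_zero f,
    fun γ => ⟨per f γ, fun z => prim_smul_sub f γ.2 z⟩, prim_tendsto_cusp f⟩

end Fermat.Agent.S21x
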