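/-
S21 project, module B: uniqueness of the equivariant primitive, the formula for `periodMap`,
linearity of `periodMap` and the formula for `periodHomPair`.  (helper31)
-/
import Fermat.Agent.S21x.Prim
import Fermat.Agent.S22x.NicePrimitive

set_option autoImplicit false

open UpperHalfPlane CongruenceSubgroup Filter Topology ModularCurve ModularCurve.Period
open scoped MatrixGroups Real Manifold

namespace Fermat.Agent.S21x

variable {N : ℕ} [NeZero N]

theorem hasEquivariantPrimitive_unique {f : CuspForm (Gamma0 N) 2}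
    {F₁ F₂ : ℍ → ℂ} (h₁ : HasEquivariantPrimitive N f F₁) (h₂ : HasEquivariantPrimitive N f F₂) :
    F₁ = F₂ :=
  S22x.IsPrimitiveOf.eq_of_isZeroAtImInfty h₁.1 h₂.1 h₁.2.1 h₂.2.1

/-- the period map is computed by ANY equivariant primitive, at ANY base point -/
theorem periodMap_apply_of {f : CuspForm (Gamma0 N) 2} {F : ℍ → ℂ}
    (hF : HasEquivariantPrimitive N f F) (γ : Gamma0 N) (z : ℍ) :
    periodMap N f (Additive.ofMul γ) = F ((γ : SL(2, ℤ)) • z) - F z := by
  obtain ⟨F₀, h₀, hP⟩ := periodMap_def N f hF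
  have hFF : F₀ = F := hasEquivariantPrimitive_unique h₀ hF
  subst hFF
  rw [hP, IsEquivariantPrimitive.periodHom_apply, ← h₀.2.2.1.sub_eq_period γ z]

theorem periodMap_apply (f : CuspForm (Gamma0 N) 2) (γ : Gamma0 N) (z : ℍ) :
    periodMap N f (Additive.ofMul γ) = prim f ((γ : SL(2, ℤ)) • z) - prim f z :=
  periodMap_apply_of (hasEquivariantPrimitive_prim f) γ z

theorem periodMap_add (f g : CuspForm (Gamma0 N) 2) :
    periodMap N (f + g) = periodMap N f + periodMap N g := by
  refine AddMonoidHom.ext fun γ => ?_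
  obtain ⟨γ, rfl⟩ := Additive.ofMul.surjective γ
  rw [AddMonoidHom.add_apply, periodMap_apply _ γ UpperHalfPlane.I,
    periodMap_apply _ γ UpperHalfPlane.I, periodMap_apply _ γ UpperHalfPlane.I, prim_add]
  simp only [Pi.add_apply]
  ring

theorem periodMap_smul (c : ℂ) (f : CuspForm (Gamma0 N) 2) :
    periodMap N (c • f) = c • periodMap N f := by
  refine AddMonoidHom.ext fun γ => ?_
  obtain ⟨γ, rfl⟩ := Additive.ofMul.surjective γ
  rw [AddMonoidHom.smul_apply, periodMap_apply _ γ UpperHalfPlane.I,
    periodMap_apply _ γ UpperHalfPlane.I, prim_smul]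
  simp only [Pi.smul_apply, smul_eq_mul]
  ring

/-- `periodMap` as a linear map. -/
noncomputable def periodMapLinear (N : ℕ) [NeZero N] :
    CuspForm (Gamma0 N) 2 →ₗ[ℂ] (Additive (Gamma0 N) →+ ℂ) where
  toFun := periodMap N
  map_add' := periodMap_add
  map_smul' := periodMap_smul

theorem existsPeriodMapLinear (N : ℕ) [NeZero N] : ExistsPeriodMapLinear N :=
  ⟨periodMapLinear N, fun _ => rfl⟩

theorem periodHomPair_apply (f g : CuspForm (Gamma0 N) 2) :
    periodHomPair N (f, g) =
      (periodMap N f + charInvolution N ℂ ℂ (periodMap N f)) +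
        (periodMap N g - charInvolution N ℂ ℂ (periodMap N g)) := by
  obtain ⟨pml, hpml, hP⟩ := periodHomPair_def N (existsPeriodMapLinear N)
  rw [hP]
  simp only [LinearMap.coprod_apply, LinearMap.comp_apply, LinearMap.add_apply,
    LinearMap.sub_apply, LinearMap.id_apply, hpml]

end Fermat.Agent.S21x
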