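import Fermat.Agent.S21x.InjectiveCore
import Fermat.Agent.S21x.PeriodMap
import Fermat.Agent.S21x.MaxPrinciple

/-!
# S21 module E1: injectivity of the Eichler-Shimura period map `periodHomPair`

`P_u + ι P_v = 0 ⇒ u = v = 0` and injectivity of `periodHomPair` (exact `Spec` statements),
instantiating `InjectiveCore.lean` with the landed modules A (`Prim`), B (`PeriodMap`),
D (`Involution`), E0 (`MaxPrinciple`).  (helper75)
-/

set_option autoImplicit false

open UpperHalfPlane CongruenceSubgroup Filter Topology ModularCurve ModularCurve.Period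
open Matrix.SpecialLinearGroup
open scoped MatrixGroups Real Manifold

namespace Fermat.Agent.S21x

variable {N : ℕ} [NeZero N]

/-- at every cusp `δ∞`, `prim f ∘ δ` is periodic with period `N` (same statement as
`prim_cusp_periodic` of module C; here derived from `mp_periodic`). -/
theorem inj_prim_cusp_periodic (f : CuspForm (Gamma0 N) 2) (δ : SL(2, ℤ)) (w : ℍ) :
    prim f (δ • ((N : ℝ) +ᵥ w)) = prim f (δ • w) := by
  obtain ⟨L, hL⟩ := prim_tendsto_cusp f δ
  refine mp_periodic N (prim f) (fun γ hγ => ⟨per f γ, fun z => ?_⟩) δ L hL w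
  rw [← prim_smul_sub f hγ z]
  ring

theorem isGoodPrim_prim (f : CuspForm (Gamma0 N) 2) : IsGoodPrim N f (prim f) where
  hasDerivAt := prim_hasDerivAt f
  periodMap_apply := periodMap_apply f
  cusp_periodic := inj_prim_cusp_periodic f
  tendsto_cusp := prim_tendsto_cusp f

theorem maxPrincipleStmt (N : ℕ) [NeZero N] : MaxPrincipleStmt N :=
  fun G hG hinv hper hlim => eq_const_of_re_invariant N G hG hinv hper hlim

/-- (E1) `P_u + ι P_v = 0 ⇒ u = v = 0`. -/
theorem periodMap_add_charInvolution_eq_zero {u v : CuspForm (Gamma0 N) 2}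
    (h : periodMap N u + charInvolution N ℂ ℂ (periodMap N v) = 0) : u = 0 ∧ v = 0 :=
  periodMap_add_charInvolution_eq_zero_of (maxPrincipleStmt N) (isGoodPrim_prim u)
    (isGoodPrim_prim v) h

theorem periodHomPair_injective (N : ℕ) [NeZero N] :
    Function.Injective (periodHomPair N) :=
  periodHomPair_injective_of (fun _ _ h => periodMap_add_charInvolution_eq_zero h)
    periodMap_add periodMap_smul periodHomPair_apply

end Fermat.Agent.S21x
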