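import Fermat.Agent.S21x.Defs
import Fermat.Agent.S21x.Prim

/-!
# S21 module C: periods of parabolic elements vanish

* `exists_conj_T_zpow` : elements of `SL(2,ℤ)` with `trace² = 4` are `± δ T^m δ⁻¹` (pure algebra).
* `parabolic_const_eq_zero` : if `F ∘ δ` has a limit at `i∞` for every `δ` and
  `F (γ z) - F z = c` for all `z`, with `γ` of `trace² = 4`, then `c = 0`.
* `isParabolicHom_periodHom` : the period homomorphism of an equivariant primitive with limits at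
  all cusps is parabolic.
* `periodMap_mem_parabolicHoms`, `range_periodHomPair_le` : **unconditional** (no input from
  modules A/B needed: if no equivariant primitive exists the Prelude definitions return `0`).
* `cusp_periodic_of_hasEquivariantPrimitive` : `F (δ (N + w)) = F (δ w)` for any
  `HasEquivariantPrimitive N f F`; `prim_cusp_periodic` is the special case `F = prim f`
  (the only statement of this file that uses module A, `Prim.lean`).
-/

set_option autoImplicit false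

open UpperHalfPlane CongruenceSubgroup Filter Topology ModularCurve ModularCurve.Period
open Matrix Matrix.SpecialLinearGroup ModularGroup
open scoped MatrixGroups Real Manifold

namespace Fermat.Agent.S21x

/-! ## Pure `SL(2,ℤ)` algebra -/

/-- An element of `SL(2,ℤ)` fixing the column vector `e₁` is a power of `T`. -/
theorem eq_T_zpow_of_fix_e1 (M : SL(2, ℤ)) (h00 : M 0 0 = 1) (h10 : M 1 0 = 0) :
    M = ModularGroup.T ^ (M 0 1) := by
  have hdet := M.det_coe
  rw [Matrix.det_fin_two, h00, h10] at hdet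
  have h11 : M 1 1 = 1 := by linarith
  ext i j
  fin_cases i <;> fin_cases j <;> simp [ModularGroup.coe_T_zpow, h00, h10, h11]

theorem exists_conj_T_zpow_of_fixed_vector (γ : SL(2, ℤ)) (p q : ℤ) (hpq : IsCoprime p q)
    (h1 : γ 0 0 * p + γ 0 1 * q = p) (h2 : γ 1 0 * p + γ 1 1 * q = q) :
    ∃ (δ : SL(2, ℤ)) (m : ℤ), γ = δ * ModularGroup.T ^ m * δ⁻¹ := by
  obtain ⟨δ, hδ0, hδ1⟩ := hpq.exists_SL2_col 0
  set M : SL(2, ℤ) := δ⁻¹ * γ * δ with hM
  have hδdet := δ.det_coe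
  rw [Matrix.det_fin_two, hδ0, hδ1] at hδdet
  have h00 : M 0 0 = 1 := by
    simp only [hM, coe_mul, coe_inv, Matrix.adjugate_fin_two, Matrix.mul_apply, Fin.sum_univ_two,
      Matrix.of_apply, Matrix.cons_val', Matrix.cons_val_zero, Matrix.cons_val_one,
      Matrix.empty_val', Matrix.cons_val_fin_one, hδ0, hδ1]
    linear_combination (δ 1 1) * h1 - (δ 0 1) * h2 + hδdet
  have h10 : M 1 0 = 0 := by
    simp only [hM, coe_mul, coe_inv, Matrix.adjugate_fin_two, Matrix.mul_apply, Fin.sum_univ_two,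
      Matrix.of_apply, Matrix.cons_val', Matrix.cons_val_zero, Matrix.cons_val_one,
      Matrix.empty_val', Matrix.cons_val_fin_one, hδ0, hδ1]
    linear_combination (-q) * h1 + p * h2
  refine ⟨δ, M 0 1, ?_⟩
  rw [← eq_T_zpow_of_fix_e1 M h00 h10, hM]
  group

theorem exists_conj_T_zpow_of_trace_two (γ : SL(2, ℤ))
    (h : (γ : Matrix (Fin 2) (Fin 2) ℤ).trace = 2) :
    ∃ (δ : SL(2, ℤ)) (m : ℤ), γ = δ * ModularGroup.T ^ m * δ⁻¹ := by
  have hdet := γ.det_coe
  rw [Matrix.det_fin_two] at hdet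
  rw [Matrix.trace_fin_two] at h
  -- the vector `(b, 1 - a)` is fixed
  by_cases hzero : γ 0 1 = 0 ∧ 1 - γ 0 0 = 0
  · -- `γ = [[1,0],[c,1]]` fixes `(0,1)`
    obtain ⟨hb, ha⟩ := hzero
    have ha' : γ 0 0 = 1 := by linarith
    have hd : γ 1 1 = 1 := by linarith
    refine exists_conj_T_zpow_of_fixed_vector γ 0 1 (isCoprime_zero_left.mpr isUnit_one) ?_ ?_
    · rw [hb]; ring
    · rw [hd]; ring
  · have hg : 0 < Int.gcd (γ 0 1) (1 - γ 0 0) := by
      rw [Int.gcd_pos_iff]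
      by_contra hcon
      apply hzero
      constructor
      · by_contra h1
        exact hcon (Or.inl h1)
      · by_contra h1
        exact hcon (Or.inr h1)
    obtain ⟨p, q, hpq, hp, hq⟩ := Int.exists_gcd_one hg
    set g : ℤ := (Int.gcd (γ 0 1) (1 - γ 0 0) : ℤ) with hgdef
    have hg0 : g ≠ 0 := by
      have : (0 : ℤ) < g := by rw [hgdef]; exact_mod_cast hg
      exact this.ne'
    have hcop : IsCoprime p q := Int.isCoprime_iff_gcd_eq_one.mpr hpq
    refine exists_conj_T_zpow_of_fixed_vector γ p q hcop ?_ ?_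
    · apply mul_right_cancel₀ hg0
      have e1 : γ 0 1 = p * g := hp
      have e2 : 1 - γ 0 0 = q * g := hq
      linear_combination (1 - γ 0 0) * e1 - (γ 0 1) * e2
    · apply mul_right_cancel₀ hg0
      have e1 : γ 0 1 = p * g := hp
      have e2 : 1 - γ 0 0 = q * g := hq
      linear_combination (-(γ 1 0)) * e1 - (γ 1 1 - 1) * e2 + h - hdet

/-- classification of the elements of `SL(2,ℤ)` with `trace² = 4`: they are `± δ T^m δ⁻¹`. -/
theorem exists_conj_T_zpow (γ : SL(2, ℤ))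
    (h : (γ : Matrix (Fin 2) (Fin 2) ℤ).trace ^ 2 = 4) :
    ∃ (δ : SL(2, ℤ)) (m : ℤ), γ = δ * ModularGroup.T ^ m * δ⁻¹ ∨
      γ = -(δ * ModularGroup.T ^ m * δ⁻¹) := by
  have h2 : (γ : Matrix (Fin 2) (Fin 2) ℤ).trace = 2 ∨
      (γ : Matrix (Fin 2) (Fin 2) ℤ).trace = -2 := by
    have : ((γ : Matrix (Fin 2) (Fin 2) ℤ).trace - 2) *
        ((γ : Matrix (Fin 2) (Fin 2) ℤ).trace + 2) = 0 := by
      linear_combination h
    rcases mul_eq_zero.mp this with h' | h'
    · left; linarith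
    · right; linarith
  rcases h2 with h2 | h2
  · obtain ⟨δ, m, hδ⟩ := exists_conj_T_zpow_of_trace_two γ h2
    exact ⟨δ, m, Or.inl hδ⟩
  · have h3 : ((-γ : SL(2, ℤ)) : Matrix (Fin 2) (Fin 2) ℤ).trace = 2 := by
      rw [Matrix.SpecialLinearGroup.coe_neg, Matrix.trace_neg, h2]; norm_num
    obtain ⟨δ, m, hδ⟩ := exists_conj_T_zpow_of_trace_two (-γ) h3
    refine ⟨δ, m, Or.inr ?_⟩
    rw [← hδ, neg_neg]

/-- Action version: a parabolic `γ` acts on `ℍ` as `δ T^m δ⁻¹`. -/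
theorem exists_smul_eq_conj_T_zpow_smul (γ : SL(2, ℤ))
    (h : (γ : Matrix (Fin 2) (Fin 2) ℤ).trace ^ 2 = 4) :
    ∃ (δ : SL(2, ℤ)) (m : ℤ), ∀ w : ℍ, γ • (δ • w) = δ • (ModularGroup.T ^ m • w) := by
  obtain ⟨δ, m, hδ | hδ⟩ := exists_conj_T_zpow γ h
  · refine ⟨δ, m, fun w => ?_⟩
    rw [hδ, ← mul_smul, ← mul_smul]
    congr 1
    group
  · refine ⟨δ, m, fun w => ?_⟩
    rw [hδ, ModularGroup.SL_neg_smul, ← mul_smul, ← mul_smul]
    congr 1
    group

/-! ## The limit argument -/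

theorem tendsto_T_zpow_smul_atImInfty (m : ℤ) :
    Tendsto (fun w : ℍ => ModularGroup.T ^ m • w) atImInfty atImInfty := by
  rw [atImInfty, tendsto_comap_iff]
  have : (UpperHalfPlane.im ∘ fun w : ℍ => ModularGroup.T ^ m • w) = UpperHalfPlane.im := by
    funext w
    exact ModularGroup.im_T_zpow_smul w m
  rw [this]
  exact tendsto_comap

/-- If `F ∘ δ` has a limit at `i∞`, then a constant `F (δ T^m w) - F (δ w)` is zero. -/
theorem const_eq_zero_of_tendsto_cusp {F : ℍ → ℂ} (δ : SL(2, ℤ)) (m : ℤ) (c : ℂ)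
    (hlim : ∃ L : ℂ, Tendsto (fun w : ℍ => F (δ • w)) atImInfty (𝓝 L))
    (hc : ∀ w : ℍ, F (δ • (ModularGroup.T ^ m • w)) - F (δ • w) = c) : c = 0 := by
  obtain ⟨L, hL⟩ := hlim
  have h1 : Tendsto (fun w : ℍ => F (δ • (ModularGroup.T ^ m • w))) atImInfty (𝓝 L) :=
    hL.comp (tendsto_T_zpow_smul_atImInfty m)
  have h2 : Tendsto (fun w : ℍ => F (δ • (ModularGroup.T ^ m • w)) - F (δ • w)) atImInfty
      (𝓝 (L - L)) := h1.sub hL
  have h3 : Tendsto (fun _ : ℍ => c) atImInfty (𝓝 (L - L)) := by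
    refine h2.congr fun w => hc w
  have h4 : c = L - L := tendsto_nhds_unique tendsto_const_nhds h3
  rw [h4, sub_self]

/-- **Parabolic periods vanish**: if `F ∘ δ` has a limit at `i∞` for every `δ ∈ SL(2,ℤ)` and
`F (γ z) - F z = c` for all `z` where `γ` has `trace² = 4`, then `c = 0`. -/
theorem parabolic_const_eq_zero {F : ℍ → ℂ}
    (hcusp : ∀ δ : SL(2, ℤ), ∃ L : ℂ, Tendsto (fun w : ℍ => F (δ • w)) atImInfty (𝓝 L))
    (γ : SL(2, ℤ)) (h : (γ : Matrix (Fin 2) (Fin 2) ℤ).trace ^ 2 = 4) (c : ℂ)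
    (hc : ∀ z : ℍ, F (γ • z) - F z = c) : c = 0 := by
  obtain ⟨δ, m, hδ⟩ := exists_smul_eq_conj_T_zpow_smul γ h
  refine const_eq_zero_of_tendsto_cusp δ m c (hcusp δ) fun w => ?_
  rw [← hδ w]
  exact hc (δ • w)

/-- The period homomorphism of an equivariant primitive with limits at all cusps is parabolic. -/
theorem isParabolicHom_periodHom {Γ : Subgroup SL(2, ℤ)} {F : ℍ → ℂ}
    (hF : IsEquivariantPrimitive Γ F)
    (hcusp : ∀ δ : SL(2, ℤ), ∃ L : ℂ, Tendsto (fun w : ℍ => F (δ • w)) atImInfty (𝓝 L)) :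
    IsParabolicHom Γ hF.periodHom := by
  intro γ hγ
  rw [IsEquivariantPrimitive.periodHom_apply]
  exact parabolic_const_eq_zero hcusp (γ : SL(2, ℤ)) hγ _ fun z => hF.sub_eq_period γ z

/-! ## The period map lands in the parabolic homomorphisms (unconditionally) -/

theorem periodMap_mem_parabolicHoms (N : ℕ) [NeZero N] (f : CuspForm (Gamma0 N) 2) :
    periodMap N f ∈ parabolicHoms ℂ (Gamma0 N) ℂ := by
  classical
  by_cases h : ∃ F : ℍ → ℂ, HasEquivariantPrimitive N f F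
  · obtain ⟨F, hF⟩ := h
    obtain ⟨F₀, h₀, hper⟩ := periodMap_def N f hF
    rw [hper, mem_parabolicHoms_iff]
    exact isParabolicHom_periodHom h₀.2.2.1 h₀.2.2.2
  · have : periodMap N f = 0 := by
      unfold periodMap
      rw [dif_neg h]
    rw [this]
    exact Submodule.zero_mem _

theorem range_periodHomPair_le (N : ℕ) [NeZero N] :
    LinearMap.range (periodHomPair N) ≤ parabolicHoms ℂ (Gamma0 N) ℂ := by
  classical
  by_cases h : ExistsPeriodMapLinear N
  · obtain ⟨pml, hpml, hdef⟩ := periodHomPair_def N h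
    rintro φ ⟨⟨f, g⟩, rfl⟩
    rw [hdef]
    simp only [LinearMap.coprod_apply, LinearMap.comp_apply, LinearMap.add_apply,
      LinearMap.sub_apply, LinearMap.id_apply, hpml]
    refine Submodule.add_mem _ (Submodule.add_mem _ (periodMap_mem_parabolicHoms N f) ?_)
      (Submodule.sub_mem _ (periodMap_mem_parabolicHoms N g) ?_)
    · exact charInvolution_mem_parabolicHoms N ℂ ℂ (periodMap_mem_parabolicHoms N f)
    · exact charInvolution_mem_parabolicHoms N ℂ ℂ (periodMap_mem_parabolicHoms N g)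
  · have : periodHomPair N = 0 := by
      unfold periodHomPair
      rw [dif_neg h]
    rw [this]
    rintro φ ⟨x, rfl⟩
    simp

/-! ## Periodicity at the cusps -/

theorem conj_T_pow_mem_Gamma0 (N : ℕ) (δ : SL(2, ℤ)) :
    δ * ModularGroup.T ^ (N : ℤ) * δ⁻¹ ∈ Gamma0 N := by
  have h1 : ModularGroup.T ^ (N : ℤ) ∈ Gamma N := by
    simpa using ModularGroup_T_pow_mem_Gamma (N : ℤ) (N : ℤ) dvd_rfl
  have h2 : δ * ModularGroup.T ^ (N : ℤ) * δ⁻¹ ∈ Gamma N :=
    (Gamma_normal N).conj_mem _ h1 δ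
  rw [Gamma_mem] at h2
  rw [Gamma0_mem]
  exact h2.2.2.1

theorem conj_T_pow_trace (N : ℕ) (δ : SL(2, ℤ)) :
    ((δ * ModularGroup.T ^ (N : ℤ) * δ⁻¹ : SL(2, ℤ)) : Matrix (Fin 2) (Fin 2) ℤ).trace ^ 2 = 4 := by
  have : ((δ * ModularGroup.T ^ (N : ℤ) * δ⁻¹ : SL(2, ℤ)) : Matrix (Fin 2) (Fin 2) ℤ).trace = 2 := by
    rw [Matrix.SpecialLinearGroup.coe_mul, Matrix.SpecialLinearGroup.coe_mul,
      Matrix.trace_mul_comm, ← Matrix.mul_assoc, ← Matrix.SpecialLinearGroup.coe_mul,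
      inv_mul_cancel, Matrix.SpecialLinearGroup.coe_one, Matrix.one_mul,
      ModularGroup.coe_T_zpow, Matrix.trace_fin_two_of]
    norm_num
  rw [this]; norm_num

theorem vadd_eq_T_zpow_smul (N : ℕ) (w : ℍ) : ((N : ℝ) +ᵥ w : ℍ) = ModularGroup.T ^ (N : ℤ) • w := by
  apply UpperHalfPlane.ext
  rw [ModularGroup.coe_T_zpow_smul_eq, UpperHalfPlane.coe_vadd]
  push_cast
  ring

/-- At every cusp `δ∞`, an equivariant primitive `F` (with limits at the cusps) satisfies
`F (δ (N + w)) = F (δ w)`. -/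
theorem cusp_periodic_of_isEquivariantPrimitive {N : ℕ} {F : ℍ → ℂ}
    (hF : IsEquivariantPrimitive (Gamma0 N) F)
    (hcusp : ∀ δ : SL(2, ℤ), ∃ L : ℂ, Tendsto (fun w : ℍ => F (δ • w)) atImInfty (𝓝 L))
    (δ : SL(2, ℤ)) (w : ℍ) :
    F (δ • ((N : ℝ) +ᵥ w)) = F (δ • w) := by
  set γ : Gamma0 N := ⟨δ * ModularGroup.T ^ (N : ℤ) * δ⁻¹, conj_T_pow_mem_Gamma0 N δ⟩ with hγ
  have h0 : hF.period γ = 0 :=
    parabolic_const_eq_zero hcusp (γ : SL(2, ℤ)) (conj_T_pow_trace N δ) _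
      fun z => hF.sub_eq_period γ z
  have h1 := hF.sub_eq_period γ (δ • w)
  rw [h0, sub_eq_zero] at h1
  rw [← h1, vadd_eq_T_zpow_smul]
  congr 1
  show δ • (ModularGroup.T ^ (N : ℤ) • w) = (δ * ModularGroup.T ^ (N : ℤ) * δ⁻¹) • (δ • w)
  rw [← mul_smul, ← mul_smul]
  congr 1
  group

theorem cusp_periodic_of_hasEquivariantPrimitive {N : ℕ} {f : CuspForm (Gamma0 N) 2} {F : ℍ → ℂ}
    (hF : HasEquivariantPrimitive N f F) (δ : SL(2, ℤ)) (w : ℍ) :
    F (δ • ((N : ℝ) +ᵥ w)) = F (δ • w) :=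
  cusp_periodic_of_isEquivariantPrimitive hF.2.2.1 hF.2.2.2 δ w

/-- at every cusp `δ∞`, `prim f ∘ δ` is periodic with period `N`
(`δ T^N δ⁻¹ ∈ Γ(N) ≤ Γ₀(N)` is parabolic, so its period vanishes). -/
theorem prim_cusp_periodic {N : ℕ} [NeZero N] (f : CuspForm (Gamma0 N) 2) (δ : SL(2, ℤ)) (w : ℍ) :
    prim f (δ • ((N : ℝ) +ᵥ w)) = prim f (δ • w) :=
  cusp_periodic_of_hasEquivariantPrimitive (hasEquivariantPrimitive_prim f) δ w

end Fermat.Agent.S21x
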