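import Fermat.Agent.S21x.PermOp

/-! S21 project, module F2c_Augment: for a transitive action of a group generated by `s, t`, the
augmentation kernel of `X → ℂ` is `(1 - s)V + (1 - t)V`. -/

set_option autoImplicit false

namespace Fermat.Agent.S21x

open Module

variable {G : Type} [Group G] {X : Type} [Fintype X] [DecidableEq X] [MulAction G X]

/-- every function is the sum of its values times point indicators -/
theorem aug_eq_sum_smul_eX (v : X → ℂ) : v = ∑ x, v x • eX x := by
  funext y
  rw [Finset.sum_apply]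
  simp only [eX, Pi.smul_apply, Pi.single_apply, smul_eq_mul, mul_ite, mul_one, mul_zero]
  rw [Finset.sum_ite_eq]
  simp

theorem aug_eX_smul_sub_mem_range (g : G) (z : X) :
    eX (g • z) - eX z ∈ LinearMap.range ((1 : (X → ℂ) →ₗ[ℂ] (X → ℂ)) - gop g) := by
  refine ⟨-eX z, ?_⟩
  rw [map_neg, LinearMap.sub_apply, Module.End.one_apply, gop_eX, neg_sub]

theorem ker_sumFun_le (s t : G) (hgen : Subgroup.closure {s, t} = ⊤)
    [MulAction.IsPretransitive G X] :
    LinearMap.ker (sumFun (X := X)) ≤
      LinearMap.range ((1 : (X → ℂ) →ₗ[ℂ] (X → ℂ)) - gop s) ⊔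
        LinearMap.range ((1 : (X → ℂ) →ₗ[ℂ] (X → ℂ)) - gop t) := by
  classical
  set M : Submodule ℂ (X → ℂ) :=
    LinearMap.range ((1 : (X → ℂ) →ₗ[ℂ] (X → ℂ)) - gop s) ⊔
      LinearMap.range ((1 : (X → ℂ) →ₗ[ℂ] (X → ℂ)) - gop t) with hM
  -- the key property, for every group element
  have hP : ∀ g : G, ∀ z : X, eX (g • z) - eX z ∈ M := by
    intro g
    have hg : g ∈ Subgroup.closure ({s, t} : Set G) := by rw [hgen]; exact Subgroup.mem_top g
    induction hg using Subgroup.closure_induction with
    | mem x hx =>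
      intro z
      rcases hx with rfl | rfl
      · exact Submodule.mem_sup_left (aug_eX_smul_sub_mem_range _ z)
      · exact Submodule.mem_sup_right (aug_eX_smul_sub_mem_range _ z)
    | one => intro z; rw [one_smul, sub_self]; exact Submodule.zero_mem _
    | mul x y _ _ hx hy =>
      intro z
      have : eX ((x * y) • z) - eX z = (eX (x • (y • z)) - eX (y • z)) + (eX (y • z) - eX z) := by
        rw [mul_smul]; abel
      rw [this]
      exact Submodule.add_mem _ (hx (y • z)) (hy z)
    | inv x _ hx =>
      intro z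
      have : eX (x⁻¹ • z) - eX z = -(eX (x • (x⁻¹ • z)) - eX (x⁻¹ • z)) := by
        rw [smul_inv_smul]; abel
      rw [this]
      exact Submodule.neg_mem _ (hx (x⁻¹ • z))
  intro v hv
  rw [LinearMap.mem_ker, sumFun_apply] at hv
  rcases isEmpty_or_nonempty X with hX | ⟨⟨x₀⟩⟩
  · have : v = 0 := Subsingleton.elim _ _
    rw [this]; exact Submodule.zero_mem _
  · have hall : ∀ x : X, eX x - eX x₀ ∈ M := by
      intro x
      obtain ⟨g, rfl⟩ := MulAction.exists_smul_eq G x₀ x
      exact hP g x₀
    have hv' : v = ∑ x, v x • (eX x - eX x₀) := by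
      conv_lhs => rw [aug_eq_sum_smul_eX v]
      simp only [smul_sub, Finset.sum_sub_distrib]
      rw [← Finset.sum_smul, hv, zero_smul, sub_zero]
    rw [hv']
    exact Submodule.sum_mem _ fun x _ => Submodule.smul_mem _ _ (hall x)

end Fermat.Agent.S21x
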