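import Fermat.Agent.S21x.PermOp

/-! S21 project, module F2b_Orbits: invariants of `gop t` on `X → ℂ` = functions on the orbit space
of `⟨t⟩`; the norm operator `∑_{i<n} T^i` surjects onto the invariants when `t ^ n` acts trivially. -/

set_option autoImplicit false

namespace Fermat.Agent.S21x

open Module

variable {G : Type} [Group G] {X : Type} [Fintype X] [DecidableEq X] [MulAction G X]

theorem orb_mem_ker_iff (t : G) (v : X → ℂ) :
    v ∈ LinearMap.ker ((1 : (X → ℂ) →ₗ[ℂ] (X → ℂ)) - gop t) ↔ ∀ x, v (t⁻¹ • x) = v x := by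
  rw [LinearMap.mem_ker, LinearMap.sub_apply, Module.End.one_apply, sub_eq_zero]
  constructor
  · intro h x
    have := congrFun h x
    rw [gop_apply] at this
    exact this.symm
  · intro h
    funext x
    rw [gop_apply, h x]

omit [Fintype X] [DecidableEq X] in
/-- a `t`-invariant function is invariant under all of `⟨t⟩` -/
theorem orb_invariant_zpowers (t : G) (v : X → ℂ) (h : ∀ x, v (t⁻¹ • x) = v x)
    (g : Subgroup.zpowers t) (x : X) : v (g • x) = v x := by
  have h' : ∀ x, v (t • x) = v x := by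
    intro x
    have := h (t • x)
    rw [inv_smul_smul] at this
    exact this.symm
  have key : ∀ (k : ℤ) (x : X), v ((t ^ k) • x) = v x := by
    intro k
    induction k using Int.induction_on with
    | zero => intro x; simp
    | succ n ih => intro x; rw [zpow_add_one, mul_smul, ih (t • x), h']
    | pred n ih => intro x; rw [zpow_sub_one, mul_smul, ih (t⁻¹ • x), h]
  obtain ⟨g, hg⟩ := g
  obtain ⟨k, rfl⟩ := Subgroup.mem_zpowers_iff.mp hg
  exact key k x

/-- pull-back of functions along the quotient map to the orbit space of `⟨t⟩` -/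
noncomputable def orbPull (t : G) :
    (MulAction.orbitRel.Quotient (Subgroup.zpowers t) X → ℂ) →ₗ[ℂ] (X → ℂ) :=
  LinearMap.funLeft ℂ ℂ (Quotient.mk'' : X → MulAction.orbitRel.Quotient (Subgroup.zpowers t) X)

omit [Fintype X] [DecidableEq X] in
theorem orbPull_injective (t : G) : Function.Injective (orbPull (X := X) t) :=
  LinearMap.funLeft_injective_of_surjective ℂ ℂ _ Quotient.mk''_surjective

theorem range_orbPull (t : G) :
    LinearMap.range (orbPull (X := X) t) =
      LinearMap.ker ((1 : (X → ℂ) →ₗ[ℂ] (X → ℂ)) - gop t) := by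
  apply le_antisymm
  · rintro _ ⟨f, rfl⟩
    rw [orb_mem_ker_iff]
    intro x
    show f (Quotient.mk'' (t⁻¹ • x)) = f (Quotient.mk'' x)
    congr 1
    apply Quotient.sound'
    rw [MulAction.orbitRel_apply]
    exact ⟨⟨t⁻¹, Subgroup.inv_mem _ (Subgroup.mem_zpowers t)⟩, rfl⟩
  · intro v hv
    rw [orb_mem_ker_iff] at hv
    have hinv := orb_invariant_zpowers t v hv
    refine ⟨Quotient.lift v ?_, ?_⟩
    · intro a b hab
      have hab' : a ∈ MulAction.orbit (Subgroup.zpowers t) b := (MulAction.orbitRel_apply).mp hab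
      obtain ⟨g, rfl⟩ := hab'
      exact hinv g b
    · funext x
      rfl

theorem finrank_ker_one_sub_gop (t : G) :
    Module.finrank ℂ (LinearMap.ker ((1 : (X → ℂ) →ₗ[ℂ] (X → ℂ)) - gop t)) =
      Nat.card (MulAction.orbitRel.Quotient (Subgroup.zpowers t) X) := by
  classical
  have : Finite (MulAction.orbitRel.Quotient (Subgroup.zpowers t) X) := Quotient.finite _
  let _ : Fintype (MulAction.orbitRel.Quotient (Subgroup.zpowers t) X) := Fintype.ofFinite _
  rw [← range_orbPull, LinearMap.finrank_range_of_inj (orbPull_injective t),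
    Module.finrank_fintype_fun_eq_card, Nat.card_eq_fintype_card]

theorem range_normOp (t : G) (n : ℕ) (hn : 0 < n) (htn : ∀ x : X, t ^ n • x = x) :
    LinearMap.range (∑ i ∈ Finset.range n, (gop t ^ i : (X → ℂ) →ₗ[ℂ] (X → ℂ))) =
      LinearMap.ker ((1 : (X → ℂ) →ₗ[ℂ] (X → ℂ)) - gop t) := by
  have hTn : (gop t ^ n : (X → ℂ) →ₗ[ℂ] (X → ℂ)) = 1 := by
    rw [← gop_pow]
    apply LinearMap.ext
    intro v
    funext x
    rw [gop_apply, Module.End.one_apply]
    congr 1
    have := htn ((t ^ n)⁻¹ • x)
    rw [smul_inv_smul] at this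
    exact this.symm
  apply le_antisymm
  · rintro _ ⟨w, rfl⟩
    rw [LinearMap.mem_ker, ← Module.End.mul_apply, mul_neg_geom_sum, hTn, sub_self,
      LinearMap.zero_apply]
  · intro v hv
    rw [LinearMap.mem_ker, LinearMap.sub_apply, Module.End.one_apply, sub_eq_zero] at hv
    have hpow : ∀ i : ℕ, (gop t ^ i : (X → ℂ) →ₗ[ℂ] (X → ℂ)) v = v := by
      intro i
      induction i with
      | zero => simp
      | succ i ih => rw [pow_succ, Module.End.mul_apply, ← hv, ih]
    refine ⟨((n : ℂ)⁻¹) • v, ?_⟩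
    rw [map_smul, LinearMap.sum_apply]
    simp only [hpow, Finset.sum_const, Finset.card_range]
    rw [← Nat.cast_smul_eq_nsmul ℂ, smul_smul, inv_mul_cancel₀, one_smul]
    exact_mod_cast hn.ne'

end Fermat.Agent.S21x
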