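import Fermat.Agent.S21x.Shapiro
import Fermat.Agent.S21x.Orbits
import Fermat.Agent.S21x.Augment

/-! S21 project, module F2_Shapiro (abstract dimension bound). -/

set_option autoImplicit false

namespace Fermat.Agent.S21x

open Module

section Bound

variable {G : Type} [Group G] {X : Type} [Fintype X] [DecidableEq X] [MulAction G X]
  [MulAction.IsPretransitive G X]
variable (x₀ : X) (Γ : Subgroup G)

/-- `φ ↦ c_φ(g)` as a linear map -/
noncomputable def indCocL (g : G) : (Additive Γ →+ ℂ) →ₗ[ℂ] (X → ℂ) where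
  toFun φ := indCoc x₀ Γ φ g
  map_add' φ ψ := indCoc_add x₀ φ ψ g
  map_smul' a φ := indCoc_smul x₀ a φ g

/-- the total cocycle `c_φ + dv` -/
noncomputable def totCoc (φ : Additive Γ →+ ℂ) (v : X → ℂ) (g : G) : X → ℂ :=
  indCoc x₀ Γ φ g + dcob v g

variable (Q : Submodule ℂ (Additive Γ →+ ℂ))

/-- `(φ, v) ↦ (c_φ + dv)(g)` as a linear map on `Q × V` -/
noncomputable def totL (g : G) : (Q × (X → ℂ)) →ₗ[ℂ] (X → ℂ) :=
  ((indCocL x₀ Γ g).comp (Q.subtype.comp (LinearMap.fst ℂ Q (X → ℂ)))) +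
    ((gop g - 1).comp (LinearMap.snd ℂ Q (X → ℂ)))

theorem totL_apply (g : G) (p : Q × (X → ℂ)) :
    totL x₀ Γ Q g p = totCoc x₀ Γ (p.1 : Additive Γ →+ ℂ) p.2 g := by
  simp [totL, totCoc, indCocL, dcob]

variable {Γ} (hΓ : ∀ g : G, g ∈ Γ ↔ g • x₀ = x₀)
include hΓ

theorem isCoc_totCoc (φ : Additive Γ →+ ℂ) (v : X → ℂ) : IsCoc (totCoc x₀ Γ φ v) :=
  (isCoc_indCoc x₀ hΓ φ).add (isCoc_dcob v)

variable (s t z : G) (hgen : Subgroup.closure {s, t} = ⊤) (hzX : ∀ x : X, z • x = x)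
  (hs : s * s = z) (hu : (s * t) * (s * t) * (s * t) = z)
  (hQz : ∀ φ ∈ Q, ∀ r : G, extF Γ φ (r⁻¹ * z * r) = 0)
  (hQt : ∀ φ ∈ Q, ∀ (r : G) (n : ℕ), extF Γ φ (r⁻¹ * t ^ n * r) = 0)

omit hΓ in
include hzX in
theorem gop_z : gop z = (1 : (X → ℂ) →ₗ[ℂ] (X → ℂ)) := by
  apply LinearMap.ext; intro v; funext x
  have : z⁻¹ • x = x := by rw [inv_smul_eq_iff, hzX]
  simp [this]

omit hΓ in
include hzX hQz in
theorem totCoc_z {φ : Additive Γ →+ ℂ} (hφ : φ ∈ Q) (v : X → ℂ) : totCoc x₀ Γ φ v z = 0 := by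
  funext x
  have hx : z⁻¹ • x = x := by rw [inv_smul_eq_iff, hzX]
  simp only [totCoc, indCoc, dcob, Pi.add_apply, Pi.sub_apply, gop_apply, hx, Pi.zero_apply]
  rw [hQz φ hφ]; simp

include hzX hs hQz in
theorem totCoc_s_mem {φ : Additive Γ →+ ℂ} (hφ : φ ∈ Q) (v : X → ℂ) :
    totCoc x₀ Γ φ v s ∈ LinearMap.ker ((1 : (X → ℂ) →ₗ[ℂ] (X → ℂ)) + gop s) := by
  rw [LinearMap.mem_ker]
  have h := isCoc_totCoc x₀ hΓ φ v s s
  rw [hs, totCoc_z x₀ Q z hzX hQz hφ v] at h
  simp only [LinearMap.add_apply, Module.End.one_apply]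
  exact h.symm

omit hu in
include hzX hQz in
theorem totCoc_u_mem (u : G) (hu' : u * u * u = z) {φ : Additive Γ →+ ℂ} (hφ : φ ∈ Q)
    (v : X → ℂ) :
    totCoc x₀ Γ φ v u ∈
      LinearMap.ker ((1 : (X → ℂ) →ₗ[ℂ] (X → ℂ)) + gop u + gop u * gop u) := by
  rw [LinearMap.mem_ker]
  have hc := isCoc_totCoc x₀ hΓ φ v
  have h := hc (u * u) u
  rw [hu', totCoc_z x₀ Q z hzX hQz hφ v, hc u u, gop_mul] at h
  simp only [LinearMap.add_apply, Module.End.one_apply, Module.End.mul_apply]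
  rw [Module.End.mul_apply] at h
  exact h.symm

theorem totCoc_t (φ : Additive Γ →+ ℂ) (v : X → ℂ) :
    totCoc x₀ Γ φ v t = gop s⁻¹ (totCoc x₀ Γ φ v (s * t) - totCoc x₀ Γ φ v s) := by
  have hc := isCoc_totCoc x₀ hΓ φ v
  have h := hc s⁻¹ (s * t)
  rw [inv_mul_cancel_left, hc.map_inv] at h
  rw [h, map_sub]; abel

omit hΓ in
include hQt in
theorem totCoc_t_pow {φ : Additive Γ →+ ℂ} (hφ : φ ∈ Q) (v : X → ℂ) (n : ℕ)
    (hn : ∀ x : X, t ^ n • x = x) : totCoc x₀ Γ φ v (t ^ n) = 0 := by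
  funext x
  have hx : (t ^ n)⁻¹ • x = x := by rw [inv_smul_eq_iff, hn]
  simp only [totCoc, indCoc, dcob, Pi.add_apply, Pi.sub_apply, gop_apply, hx, Pi.zero_apply]
  rw [hQt φ hφ]; simp

/-! ### The two linear maps and the count -/

/-- `A = 1 + S` -/
noncomputable abbrev opA : (X → ℂ) →ₗ[ℂ] (X → ℂ) := 1 + gop s
/-- `B = 1 + U + U²`, `U = ST` -/
noncomputable abbrev opB : (X → ℂ) →ₗ[ℂ] (X → ℂ) := 1 + gop (s * t) + gop (s * t) * gop (s * t)
/-- the norm operator of `t` of length `n` -/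
noncomputable abbrev opN (n : ℕ) : (X → ℂ) →ₗ[ℂ] (X → ℂ) :=
  ∑ i ∈ Finset.range n, (gop t ^ i : (X → ℂ) →ₗ[ℂ] (X → ℂ))

omit hΓ in
/-- `Λ (a, b) = N (S⁻¹ (b - a))` on `ker A × ker B` -/
noncomputable def lamL (n : ℕ) :
    (LinearMap.ker (opA (X := X) s) × LinearMap.ker (opB (X := X) s t)) →ₗ[ℂ] (X → ℂ) :=
  (opN (X := X) t n).comp ((gop s⁻¹).comp
    ((LinearMap.ker (opB (X := X) s t)).subtype.comp (LinearMap.snd ℂ _ _) -
      (LinearMap.ker (opA (X := X) s)).subtype.comp (LinearMap.fst ℂ _ _)))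

include hzX hs hu hQz in
/-- `Ψ (φ, v) = ((c_φ + dv)(s), (c_φ + dv)(st))` into `ker A × ker B` -/
noncomputable def psiL :
    (Q × (X → ℂ)) →ₗ[ℂ]
      (LinearMap.ker (opA (X := X) s) × LinearMap.ker (opB (X := X) s t)) :=
  LinearMap.prod
    (LinearMap.codRestrict _ (totL x₀ Γ Q s) (fun p => by
      rw [totL_apply]; exact totCoc_s_mem x₀ Q hΓ s z hzX hs hQz p.1.2 p.2))
    (LinearMap.codRestrict _ (totL x₀ Γ Q (s * t)) (fun p => by
      rw [totL_apply]; exact totCoc_u_mem x₀ Q hΓ z hzX hQz (s * t) hu p.1.2 p.2))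


end Bound

section Count

variable {G : Type} [Group G] {X : Type} [Fintype X] [DecidableEq X] [MulAction G X]
  [MulAction.IsPretransitive G X]
variable (x₀ : X) {Γ : Subgroup G} (Q : Submodule ℂ (Additive Γ →+ ℂ))
  (hΓ : ∀ g : G, g ∈ Γ ↔ g • x₀ = x₀) (s t z : G) (hzX : ∀ x : X, z • x = x)
  (hs : s * s = z) (hu : (s * t) * (s * t) * (s * t) = z)
  (hQz : ∀ φ ∈ Q, ∀ r : G, extF Γ φ (r⁻¹ * z * r) = 0)
  (hQt : ∀ φ ∈ Q, ∀ (r : G) (n : ℕ), extF Γ φ (r⁻¹ * t ^ n * r) = 0)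
  (hgen : Subgroup.closure {s, t} = ⊤)

include hQt in
theorem lamL_psiL (n : ℕ) (hn : ∀ x : X, t ^ n • x = x) (p : Q × (X → ℂ)) :
    lamL s t n (psiL x₀ Q hΓ s t z hzX hs hu hQz p) = 0 := by
  have h1 : lamL s t n (psiL x₀ Q hΓ s t z hzX hs hu hQz p) =
      opN t n (gop s⁻¹ (totCoc x₀ Γ (p.1 : Additive Γ →+ ℂ) p.2 (s * t)
        - totCoc x₀ Γ (p.1 : Additive Γ →+ ℂ) p.2 s)) := by
    simp [lamL, psiL, totL_apply]
  rw [h1, ← totCoc_t x₀ hΓ s t]
  have h2 := (isCoc_totCoc x₀ hΓ (p.1 : Additive Γ →+ ℂ) p.2).map_pow t n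
  rw [totCoc_t_pow x₀ Q t hQt p.1.2 p.2 n hn] at h2
  rw [LinearMap.sum_apply]
  exact h2.symm

include hgen in
theorem ker_psiL_le :
    LinearMap.ker (psiL x₀ Q hΓ s t z hzX hs hu hQz) ≤
      Submodule.span ℂ {((0 : Q), (fun _ : X => (1 : ℂ)))} := by
  intro p hp
  rw [LinearMap.mem_ker] at hp
  have hp1 : totCoc x₀ Γ (p.1 : Additive Γ →+ ℂ) p.2 s = 0 := by
    have := congrArg (fun q => (q.1 : X → ℂ)) hp
    simpa [psiL, totL_apply] using this
  have hp2 : totCoc x₀ Γ (p.1 : Additive Γ →+ ℂ) p.2 (s * t) = 0 := by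
    have := congrArg (fun q => (q.2 : X → ℂ)) hp
    simpa [psiL, totL_apply] using this
  have hc := isCoc_totCoc x₀ hΓ (p.1 : Additive Γ →+ ℂ) p.2
  have hgen' : Subgroup.closure ({s, s * t} : Set G) = ⊤ := by
    rw [eq_top_iff, ← hgen, Subgroup.closure_le]
    intro g hg
    rcases hg with rfl | hg
    · exact Subgroup.subset_closure (by simp)
    · rw [Set.mem_singleton_iff] at hg
      subst hg
      have h1 : s ∈ Subgroup.closure ({s, s * g} : Set G) := Subgroup.subset_closure (by simp)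
      have h2 : s * g ∈ Subgroup.closure ({s, s * g} : Set G) := Subgroup.subset_closure (by simp)
      have h3 : s⁻¹ * (s * g) ∈ Subgroup.closure ({s, s * g} : Set G) :=
        Subgroup.mul_mem _ (Subgroup.inv_mem _ h1) h2
      rwa [inv_mul_cancel_left] at h3
  have hall : ∀ g, totCoc x₀ Γ (p.1 : Additive Γ →+ ℂ) p.2 g = 0 := by
    apply hc.eq_zero_of_closure {s, s * t} _ hgen'
    intro g hg
    rcases hg with rfl | hg
    · exact hp1
    · rw [Set.mem_singleton_iff] at hg; subst hg; exact hp2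
  -- φ = 0
  have hφ : (p.1 : Additive Γ →+ ℂ) = 0 := by
    apply AddMonoidHom.ext
    intro γ
    have hγ : (Additive.toMul γ : Γ).1 ∈ Γ := (Additive.toMul γ).2
    have h0 := congrFun (hall (Additive.toMul γ : Γ).1) x₀
    have hx : ((Additive.toMul γ : Γ).1)⁻¹ • x₀ = x₀ := by
      rw [inv_smul_eq_iff, (hΓ _).mp hγ]
    simp only [totCoc, Pi.add_apply, dcob, Pi.sub_apply, gop_apply, hx, sub_self, add_zero,
      Pi.zero_apply] at h0
    rw [indCoc_apply_base x₀ hΓ _ hγ, extF_of_mem _ hγ] at h0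
    exact h0
  -- v constant
  have hv : p.2 = (p.2 x₀) • (fun _ : X => (1 : ℂ)) := by
    funext x
    have h0 := congrFun (hall (sec G x₀ x)) x
    have hx : (sec G x₀ x)⁻¹ • x = x₀ := by rw [inv_smul_eq_iff, sec_smul]
    simp only [totCoc, hφ, Pi.add_apply, dcob, Pi.sub_apply, gop_apply, hx, Pi.zero_apply] at h0
    have h1 : indCoc x₀ Γ (0 : Additive Γ →+ ℂ) (sec G x₀ x) x = 0 := by
      simp [indCoc, extF]
    rw [h1, zero_add] at h0
    simp only [Pi.smul_apply, smul_eq_mul, mul_one]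
    exact (sub_eq_zero.mp h0).symm
  have hp' : p = (p.2 x₀) • ((0 : Q), (fun _ : X => (1 : ℂ))) := by
    apply Prod.ext
    · apply Subtype.ext
      simpa using hφ
    · simpa using hv
  rw [hp']
  exact Submodule.smul_mem _ _ (Submodule.subset_span rfl)

omit hΓ hu hQz hQt in
include hzX hs in
theorem gop_s_inv : (gop s⁻¹ : (X → ℂ) →ₗ[ℂ] (X → ℂ)) = gop s := by
  have h1 : (gop s * gop s : (X → ℂ) →ₗ[ℂ] (X → ℂ)) = 1 := by
    rw [← gop_mul, hs, gop_z z hzX]
  calc (gop s⁻¹ : (X → ℂ) →ₗ[ℂ] (X → ℂ)) = gop s⁻¹ * (gop s * gop s) := by rw [h1, mul_one]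
    _ = (gop s⁻¹ * gop s) * gop s := by rw [mul_assoc]
    _ = gop s := by rw [gop_inv_mul, one_mul]

omit hΓ hu hQz hQt in
include x₀ hzX hs hgen in
theorem finrank_inv_le (n : ℕ) (hn0 : 0 < n) (hn : ∀ x : X, t ^ n • x = x) :
    Module.finrank ℂ (LinearMap.ker ((1 : (X → ℂ) →ₗ[ℂ] (X → ℂ)) - gop t)) ≤
      Module.finrank ℂ (LinearMap.range (lamL (X := X) s t n)) + 1 := by
  rw [← range_normOp t n hn0 hn]
  have hsum : sumFun (eX x₀) = 1 := by
    simp [sumFun_apply, eX]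
  have htop : (⊤ : Submodule ℂ (X → ℂ)) =
      LinearMap.ker (sumFun (X := X)) ⊔ Submodule.span ℂ {eX x₀} := by
    symm
    rw [eq_top_iff]
    intro v _
    have hv : v = (v - (sumFun v) • eX x₀) + (sumFun v) • eX x₀ := by abel
    rw [hv]
    apply Submodule.add_mem_sup
    · rw [LinearMap.mem_ker, map_sub, map_smul, hsum]; simp
    · exact Submodule.smul_mem _ _ (Submodule.subset_span rfl)
  have hTn : (gop t ^ n : (X → ℂ) →ₗ[ℂ] (X → ℂ)) = 1 := by
    rw [← gop_pow]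
    exact gop_z (t ^ n) hn
  have h2 : Submodule.map (opN (X := X) t n) (LinearMap.ker (sumFun (X := X))) ≤
      LinearMap.range (lamL (X := X) s t n) := by
    rintro _ ⟨v₀, hv₀, rfl⟩
    have hmem := ker_sumFun_le s t hgen hv₀
    obtain ⟨y, ⟨v₁, rfl⟩, w, ⟨v₂, rfl⟩, hyw⟩ := Submodule.mem_sup.mp hmem
    have hN2 : opN (X := X) t n ((1 - gop t) v₂) = 0 := by
      have := geom_sum_mul_neg (gop t : (X → ℂ) →ₗ[ℂ] (X → ℂ)) n
      rw [hTn, sub_self] at this
      have h3 := congrArg (fun f : (X → ℂ) →ₗ[ℂ] (X → ℂ) => f v₂) this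
      simpa using h3
    have ha : (1 - gop s) v₁ ∈ LinearMap.ker (opA (X := X) s) := by
      rw [LinearMap.mem_ker]
      have h1 : (gop s * gop s : (X → ℂ) →ₗ[ℂ] (X → ℂ)) = 1 := by
        rw [← gop_mul, hs, gop_z z hzX]
      have h3 := congrArg (fun f : (X → ℂ) →ₗ[ℂ] (X → ℂ) => f v₁) h1
      simp only [Module.End.mul_apply, Module.End.one_apply] at h3
      simp only [LinearMap.add_apply, LinearMap.sub_apply, Module.End.one_apply, map_sub, h3]
      abel
    refine ⟨(⟨(1 - gop s) v₁, ha⟩, 0), ?_⟩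
    have : lamL (X := X) s t n (⟨(1 - gop s) v₁, ha⟩, 0) =
        opN (X := X) t n (gop s⁻¹ (0 - (1 - gop s) v₁)) := by
      simp [lamL]
    rw [this, gop_s_inv s z hzX hs, ← hyw, map_add, hN2, add_zero]
    congr 1
    have h1 : (gop s * gop s : (X → ℂ) →ₗ[ℂ] (X → ℂ)) = 1 := by
      rw [← gop_mul, hs, gop_z z hzX]
    have h3 := congrArg (fun f : (X → ℂ) →ₗ[ℂ] (X → ℂ) => f v₁) h1
    simp only [Module.End.mul_apply, Module.End.one_apply] at h3
    simp only [LinearMap.sub_apply, Module.End.one_apply, zero_sub, map_neg, map_sub, h3]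
    abel
  have h1 : LinearMap.range (opN (X := X) t n) =
      Submodule.map (opN (X := X) t n) (LinearMap.ker (sumFun (X := X))) ⊔
        Submodule.span ℂ {opN (X := X) t n (eX x₀)} := by
    rw [LinearMap.range_eq_map, htop, Submodule.map_sup, Submodule.map_span, Set.image_singleton]
  calc Module.finrank ℂ (LinearMap.range (opN (X := X) t n))
      = Module.finrank ℂ (Submodule.map (opN (X := X) t n) (LinearMap.ker (sumFun (X := X))) ⊔
        Submodule.span ℂ {opN (X := X) t n (eX x₀)} : Submodule ℂ (X → ℂ)) := by rw [h1]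
    _ ≤ Module.finrank ℂ (Submodule.map (opN (X := X) t n) (LinearMap.ker (sumFun (X := X)))) +
        Module.finrank ℂ (Submodule.span ℂ {opN (X := X) t n (eX x₀)}) :=
          Submodule.finrank_add_le_finrank_add_finrank _ _
    _ ≤ Module.finrank ℂ (LinearMap.range (lamL (X := X) s t n)) + 1 := by
        apply add_le_add (Submodule.finrank_mono h2)
        refine (finrank_span_le_card ({opN (X := X) t n (eX x₀)} : Set (X → ℂ))).trans ?_
        simp


include hΓ hzX hs hu hQz hQt hgen in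
/-- **Abstract dimension bound** for "parabolic" homomorphisms `Γ → ℂ`. -/
theorem shapiro_bound :
    FiniteDimensional ℂ Q ∧
      6 * Module.finrank ℂ Q
        + 3 * Fintype.card (Function.fixedPoints (MulAction.toPerm s : Equiv.Perm X))
        + 4 * Fintype.card (Function.fixedPoints (MulAction.toPerm (s * t) : Equiv.Perm X))
        + 6 * Nat.card (MulAction.orbitRel.Quotient (Subgroup.zpowers t) X)
        ≤ Fintype.card X + 12 := by
  -- a positive `n` such that `t ^ n` acts trivially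
  obtain ⟨n, hn0, hn⟩ : ∃ n : ℕ, 0 < n ∧ ∀ x : X, t ^ n • x = x := by
    refine ⟨orderOf (MulAction.toPermHom G X t), orderOf_pos _, fun x => ?_⟩
    have h1 := pow_orderOf_eq_one (MulAction.toPermHom G X t)
    rw [← map_pow] at h1
    have h2 := congrArg (fun σ : Equiv.Perm X => σ x) h1
    simpa using h2
  have hker := ker_psiL_le x₀ Q hΓ s t z hzX hs hu hQz hgen
  -- finite-dimensionality of `Q`
  have hfd : FiniteDimensional ℂ Q := by
    let L : Q →ₗ[ℂ] (LinearMap.ker (opA (X := X) s) × LinearMap.ker (opB (X := X) s t)) :=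
      (psiL x₀ Q hΓ s t z hzX hs hu hQz).comp (LinearMap.inl ℂ Q (X → ℂ))
    have hL : Function.Injective L := by
      rw [← LinearMap.ker_eq_bot, eq_bot_iff]
      intro φ hφ
      have h1 : ((φ, (0 : X → ℂ)) : Q × (X → ℂ)) ∈
          LinearMap.ker (psiL x₀ Q hΓ s t z hzX hs hu hQz) := hφ
      obtain ⟨c, hc⟩ := Submodule.mem_span_singleton.mp (hker h1)
      have h2 := congrArg Prod.fst hc
      simp only [Prod.smul_mk, smul_zero] at h2
      rw [Submodule.mem_bot]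
      exact h2.symm
    exact FiniteDimensional.of_injective L hL
  refine ⟨hfd, ?_⟩
  have hrk1 := LinearMap.finrank_range_add_finrank_ker (psiL x₀ Q hΓ s t z hzX hs hu hQz)
  have hrk2 := LinearMap.finrank_range_add_finrank_ker (lamL (X := X) s t n)
  have hk : Module.finrank ℂ (LinearMap.ker (psiL x₀ Q hΓ s t z hzX hs hu hQz)) ≤ 1 := by
    refine (Submodule.finrank_mono hker).trans ?_
    refine (finrank_span_le_card
      ({((0 : Q), (fun _ : X => (1 : ℂ)))} : Set (Q × (X → ℂ)))).trans ?_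
    simp
  have hr : Module.finrank ℂ (LinearMap.range (psiL x₀ Q hΓ s t z hzX hs hu hQz)) ≤
      Module.finrank ℂ (LinearMap.ker (lamL (X := X) s t n)) := by
    apply Submodule.finrank_mono
    rintro _ ⟨p, rfl⟩
    exact lamL_psiL x₀ Q hΓ s t z hzX hs hu hQz hQt n hn p
  have hc := finrank_inv_le x₀ s t z hzX hs hgen n hn0 hn
  rw [finrank_ker_one_sub_gop] at hc
  have hSS : (MulAction.toPerm s * MulAction.toPerm s : Equiv.Perm X) = 1 := by
    ext x
    simp only [Equiv.Perm.mul_apply, MulAction.toPerm_apply, Equiv.Perm.one_apply]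
    rw [← mul_smul, hs, hzX]
  have hUUU : (MulAction.toPerm (s * t) * MulAction.toPerm (s * t) * MulAction.toPerm (s * t) :
      Equiv.Perm X) = 1 := by
    ext x
    simp only [Equiv.Perm.mul_apply, MulAction.toPerm_apply, Equiv.Perm.one_apply]
    rw [← mul_smul, ← mul_smul, hu, hzX]
  have hA := finrank_ker_one_add_permOp (MulAction.toPerm s : Equiv.Perm X) hSS
  have hB := finrank_ker_one_add_permOp_add_sq (MulAction.toPerm (s * t) : Equiv.Perm X) hUUU
  rw [Module.finrank_prod, Module.finrank_pi] at hrk1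
  rw [Module.finrank_prod] at hrk2
  change 2 * Module.finrank ℂ (LinearMap.ker (opA (X := X) s)) + _ = _ at hA
  change 3 * Module.finrank ℂ (LinearMap.ker (opB (X := X) s t)) + _ = _ at hB
  omega


end Count

end Fermat.Agent.S21x
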