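/-
S21 project, module F2e: the `SL(2,ℤ)` instantiation of the abstract Shapiro bound:
`finrank_parabolicHoms_le` in the exact `Spec` shape.  (helper31)
-/
import Fermat.Agent.S21x.ShapiroBound
import Fermat.Agent.S21x.Defs

set_option autoImplicit false

open CongruenceSubgroup ModularCurve ModularCurve.Period ModularGroup
open scoped MatrixGroups

namespace Fermat.Agent.S21x

/-- `g ∈ Γ₀(N)` iff `g` fixes the base coset. -/
theorem ssl_mem_Gamma0_iff_smul (N : ℕ) (g : SL(2, ℤ)) :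
    g ∈ Gamma0 N ↔ g • ((1 : SL(2, ℤ)) : XN N) = ((1 : SL(2, ℤ)) : XN N) := by
  rw [MulAction.Quotient.smul_mk, eq_comm, QuotientGroup.eq]
  simp

theorem ssl_neg_one_mem_Gamma0 (N : ℕ) : (-1 : SL(2, ℤ)) ∈ Gamma0 N := by
  rw [Gamma0_mem]
  simp

/-- `-1` acts trivially on the cosets. -/
theorem ssl_neg_one_smul (N : ℕ) (x : XN N) : (-1 : SL(2, ℤ)) • x = x := by
  induction x using QuotientGroup.induction_on with
  | H g =>
    rw [MulAction.Quotient.smul_mk, QuotientGroup.eq]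
    have : (((-1 : SL(2, ℤ)) • g)⁻¹ * g) = -1 := by
      rw [smul_eq_mul, mul_inv_rev]
      simp
    rw [this]
    exact ssl_neg_one_mem_Gamma0 N

theorem ssl_S_mul_S : (S * S : SL(2, ℤ)) = -1 := by
  ext i j
  fin_cases i <;> fin_cases j <;> simp [S, Matrix.mul_apply, Fin.sum_univ_two]

theorem ssl_ST_cube : ((S * T) * (S * T) * (S * T) : SL(2, ℤ)) = -1 := by
  ext i j
  fin_cases i <;> fin_cases j <;> simp [S, T, Matrix.mul_apply, Fin.sum_univ_two]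

end Fermat.Agent.S21x

namespace Fermat.Agent.S21x

theorem ssl_trace_conj (r g : SL(2, ℤ)) :
    ((r⁻¹ * g * r : SL(2, ℤ)) : Matrix (Fin 2) (Fin 2) ℤ).trace
      = (g : Matrix (Fin 2) (Fin 2) ℤ).trace := by
  rw [Matrix.SpecialLinearGroup.coe_mul, Matrix.trace_mul_comm, ← Matrix.SpecialLinearGroup.coe_mul,
    mul_inv_cancel_left]

theorem ssl_trace_T_pow (n : ℕ) :
    ((T ^ n : SL(2, ℤ)) : Matrix (Fin 2) (Fin 2) ℤ).trace = 2 := by
  rw [← zpow_natCast, coe_T_zpow, Matrix.trace_fin_two_of]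
  norm_num

theorem ssl_trace_neg_one :
    ((-1 : SL(2, ℤ)) : Matrix (Fin 2) (Fin 2) ℤ).trace = -2 := by
  rw [Matrix.SpecialLinearGroup.coe_neg, Matrix.SpecialLinearGroup.coe_one, Matrix.trace_neg,
    Matrix.trace_one]
  simp

theorem ssl_extF_eq_zero_of_trace (N : ℕ) {φ : Additive (Gamma0 N) →+ ℂ}
    (hφ : φ ∈ parabolicHoms ℂ (Gamma0 N) ℂ) (g : SL(2, ℤ))
    (hg : (g : Matrix (Fin 2) (Fin 2) ℤ).trace ^ 2 = 4) : extF (Gamma0 N) φ g = 0 := by
  by_cases hmem : g ∈ Gamma0 N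
  · rw [extF_of_mem φ hmem]
    exact hφ ⟨g, hmem⟩ hg
  · rw [extF, dif_neg hmem]

theorem ssl_extF_conj_neg_one (N : ℕ) {φ : Additive (Gamma0 N) →+ ℂ}
    (hφ : φ ∈ parabolicHoms ℂ (Gamma0 N) ℂ) (r : SL(2, ℤ)) :
    extF (Gamma0 N) φ (r⁻¹ * (-1) * r) = 0 := by
  apply ssl_extF_eq_zero_of_trace N hφ
  rw [ssl_trace_conj, ssl_trace_neg_one]
  norm_num

theorem ssl_extF_conj_T_pow (N : ℕ) {φ : Additive (Gamma0 N) →+ ℂ}
    (hφ : φ ∈ parabolicHoms ℂ (Gamma0 N) ℂ) (r : SL(2, ℤ)) (n : ℕ) :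
    extF (Gamma0 N) φ (r⁻¹ * T ^ n * r) = 0 := by
  apply ssl_extF_eq_zero_of_trace N hφ
  rw [ssl_trace_conj, ssl_trace_T_pow]
  norm_num

/-- **Dimension bound** `dim Hom_par(Γ₀(N), ℂ) ≤ μ/6 - fix(S)/2 - 2 fix(ST)/3 - #orb(T) + 2`. -/
theorem finrank_parabolicHoms_le (N : ℕ) [NeZero N] :
    FiniteDimensional ℂ (parabolicHoms ℂ (Gamma0 N) ℂ) ∧
    6 * Module.finrank ℂ (parabolicHoms ℂ (Gamma0 N) ℂ) + 3 * fixS N + 4 * fixU N + 6 * orbT N
      ≤ muN N + 12 := by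
  classical
  haveI : Finite (XN N) := Subgroup.finite_quotient_of_finiteIndex
  haveI : Fintype (XN N) := Fintype.ofFinite _
  obtain ⟨hfd, hle⟩ := shapiro_bound (G := SL(2, ℤ)) (X := XN N) ((1 : SL(2, ℤ)) : XN N)
    (parabolicHoms ℂ (Gamma0 N) ℂ) (ssl_mem_Gamma0_iff_smul N) S T (-1) (ssl_neg_one_smul N)
    ssl_S_mul_S ssl_ST_cube (fun φ hφ r => ssl_extF_conj_neg_one N hφ r)
    (fun φ hφ r n => ssl_extF_conj_T_pow N hφ r n) SpecialLinearGroup.SL2Z_generators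
  refine ⟨hfd, ?_⟩
  have h1 : Fintype.card (XN N) = muN N := Nat.card_eq_fintype_card.symm
  have h2 : Fintype.card (Function.fixedPoints (MulAction.toPerm S : Equiv.Perm (XN N)))
      = fixS N := by
    rw [← Nat.card_eq_fintype_card]; rfl
  have h3 : Fintype.card (Function.fixedPoints (MulAction.toPerm (S * T) : Equiv.Perm (XN N)))
      = fixU N := by
    rw [← Nat.card_eq_fintype_card]; rfl
  rw [h1, h2, h3] at hle
  exact hle

end Fermat.Agent.S21x
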