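/-
S21 project, module G: final assembly.  The S20 dimension formula and the four counts on
`SL(2,ℤ) ⧸ Γ₀(N)` are hypotheses here (supplied in `Fermat/Agent/S21.lean`).
(helper51's `result_from_spec`, arranged by helper31)
-/
import Fermat.Agent.S21x.Injective
import Fermat.Agent.S21x.Parabolic
import Fermat.Agent.S21x.ShapiroSL2

set_option autoImplicit false

open UpperHalfPlane CongruenceSubgroup ModularCurve ModularCurve.Period
open scoped MatrixGroups

namespace Fermat.Agent.S21x

theorem finiteDimensional_cuspForm (N : ℕ) [NeZero N] :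
    FiniteDimensional ℂ (CuspForm (Gamma0 N) 2) := by
  obtain ⟨hfd, -⟩ := finrank_parabolicHoms_le N
  let L : CuspForm (Gamma0 N) 2 →ₗ[ℂ] parabolicHoms ℂ (Gamma0 N) ℂ :=
    LinearMap.codRestrict _ ((periodHomPair N).comp (LinearMap.inl ℂ _ _))
      (fun f => range_periodHomPair_le N ⟨_, rfl⟩)
  have hL : Function.Injective L := by
    intro f g hfg
    have h1 : periodHomPair N (f, 0) = periodHomPair N (g, 0) := congrArg Subtype.val hfg
    have h2 := periodHomPair_injective N h1
    exact (Prod.mk.inj h2).1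
  exact FiniteDimensional.of_injective L hL

/-- The Eichler–Shimura isomorphism, from the S20 dimension formula and the coset counts. -/
theorem eichlerShimura_of (N : ℕ) [NeZero N]
    (hS20 : (Module.finrank ℂ (CuspForm (Gamma0 N) 2) : ℚ) = genusFormula N)
    (hmu : Nat.card (SL(2, ℤ) ⧸ Gamma0 N) = dedekindPsi N)
    (h2 : Nat.card (MulAction.fixedBy (SL(2, ℤ) ⧸ Gamma0 N) ModularGroup.S) = nuTwo N)
    (h3 : Nat.card (MulAction.fixedBy (SL(2, ℤ) ⧸ Gamma0 N) (ModularGroup.S * ModularGroup.T))
      = nuThree N)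
    (hc : Nat.card (MulAction.orbitRel.Quotient (Subgroup.zpowers ModularGroup.T)
      (SL(2, ℤ) ⧸ Gamma0 N)) = cuspCount N) :
    Function.Injective (periodHomPair N)
      ∧ LinearMap.range (periodHomPair N) = parabolicHoms ℂ (Gamma0 N) ℂ := by
  refine ⟨periodHomPair_injective N, ?_⟩
  obtain ⟨hfd, hle⟩ := finrank_parabolicHoms_le N
  have := finiteDimensional_cuspForm N
  apply Submodule.eq_of_le_of_finrank_le (range_periodHomPair_le N)
  rw [LinearMap.finrank_range_of_inj (periodHomPair_injective N), Module.finrank_prod]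
  -- numerics
  have hmu' : muN N = dedekindPsi N := hmu
  have h2' : fixS N = nuTwo N := h2
  have h3' : fixU N = nuThree N := h3
  have hc' : orbT N = cuspCount N := hc
  rw [genusFormula, ← hmu', ← h2', ← h3', ← hc'] at hS20
  have hq : (6 * Module.finrank ℂ (parabolicHoms ℂ (Gamma0 N) ℂ) + 3 * fixS N + 4 * fixU N
      + 6 * orbT N : ℚ) ≤ muN N + 12 := by exact_mod_cast hle
  have : (Module.finrank ℂ (parabolicHoms ℂ (Gamma0 N) ℂ) : ℚ) ≤
      (Module.finrank ℂ (CuspForm (Gamma0 N) 2) + Module.finrank ℂ (CuspForm (Gamma0 N) 2) : ℕ) := by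
    push_cast
    linarith
  exact_mod_cast this

end Fermat.Agent.S21x
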