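import Fermat.Agent.S21x.Involution

/-!
# S21 module E1 (core): injectivity of the Eichler-Shimura period map `periodHomPair`

`P_u + ι P_v = 0 ⇒ u = v = 0`: apply the maximum principle (E0) to `G = A + B†` and
`G = -i (A - B†)`, with `A = prim u`, `B†(z) = conj (prim v (-conj z))`.

Everything here is proved with the inputs of the modules A (`Prim`), B (`PeriodMap`),
C (`Parabolic`) and E0 (`MaxPrinciple`) as explicit hypotheses (`MaxPrincipleStmt`, `IsGoodPrim`);
`Injective.lean` instantiates them.  (helper75)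
-/

set_option autoImplicit false

open UpperHalfPlane CongruenceSubgroup Filter Topology ModularCurve ModularCurve.Period
open Matrix.SpecialLinearGroup
open scoped MatrixGroups Real Manifold ComplexConjugate

namespace Fermat.Agent.S21x

noncomputable section

/-- The statement of (E0) `eq_const_of_re_invariant` at level `N`. -/
def MaxPrincipleStmt (N : ℕ) : Prop :=
  ∀ G : ℍ → ℂ, (∀ z : ℍ, DifferentiableAt ℂ (G ∘ ofComplex) (z : ℂ)) →
    (∀ γ ∈ Gamma0 N, ∀ z : ℍ, (G (γ • z)).re = (G z).re) →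
    (∀ δ : SL(2, ℤ), ∀ z : ℍ, G (δ • ((N : ℝ) +ᵥ z)) = G (δ • z)) →
    (∀ δ : SL(2, ℤ), ∃ L : ℂ, Tendsto (fun w : ℍ => G (δ • w)) atImInfty (𝓝 L)) →
    ∀ z w : ℍ, G z = G w

/-- The facts about `F = prim f` (modules A, B, C) used in the injectivity proof. -/
structure IsGoodPrim (N : ℕ) (f : CuspForm (Gamma0 N) 2) (F : ℍ → ℂ) : Prop where
  hasDerivAt : ∀ τ : ℍ, HasDerivAt (F ∘ ofComplex) (f τ) (τ : ℂ)
  periodMap_apply : ∀ (γ : Gamma0 N) (z : ℍ),
    periodMap N f (Additive.ofMul γ) = F ((γ : SL(2, ℤ)) • z) - F z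
  cusp_periodic : ∀ (δ : SL(2, ℤ)) (w : ℍ), F (δ • ((N : ℝ) +ᵥ w)) = F (δ • w)
  tendsto_cusp : ∀ δ : SL(2, ℤ), ∃ L : ℂ, Tendsto (fun w : ℍ => F (δ • w)) atImInfty (𝓝 L)

theorem inj_ofComplex_neg_conj {w : ℂ} (hw : 0 < w.im) :
    ofComplex (-conj w) = negConj (ofComplex w) := by
  have h1 : 0 < (-conj w).im := by simpa using hw
  rw [ofComplex_apply_of_im_pos h1, ofComplex_apply_of_im_pos hw]
  rfl

/-- the combination `a A + b B†`, where `B†(z) = conj (B (-conj z))` -/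
def injG (A B : ℍ → ℂ) (a b : ℂ) : ℍ → ℂ := fun z => a * A z + b * conj (B (negConj z))

theorem inj_differentiableAt_dagger {B : ℍ → ℂ}
    (hB : ∀ z : ℍ, DifferentiableAt ℂ (B ∘ ofComplex) (z : ℂ)) (z : ℍ) :
    DifferentiableAt ℂ ((fun z : ℍ => conj (B (negConj z))) ∘ ofComplex) (z : ℂ) := by
  have h1 : DifferentiableAt ℂ (fun x : ℂ => (B ∘ ofComplex) (-x)) (conj (z : ℂ)) := by
    have h2 : DifferentiableAt ℂ (B ∘ ofComplex) (-(conj (z : ℂ))) := hB (negConj z)
    exact DifferentiableAt.comp (conj (z : ℂ)) (g := B ∘ ofComplex) (f := fun x : ℂ => -x) h2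
      differentiableAt_id.neg
  have h3 := differentiableAt_conj_conj_iff.2 h1
  refine h3.congr_of_eventuallyEq ?_
  have hopen : IsOpen {w : ℂ | 0 < w.im} := isOpen_lt continuous_const Complex.continuous_im
  filter_upwards [hopen.mem_nhds (show (z : ℂ) ∈ {w : ℂ | 0 < w.im} from z.im_pos)] with w hw
  simp only [Function.comp_apply]
  rw [inj_ofComplex_neg_conj hw]

theorem inj_differentiableAt_injG {A B : ℍ → ℂ}
    (hA : ∀ z : ℍ, DifferentiableAt ℂ (A ∘ ofComplex) (z : ℂ))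
    (hB : ∀ z : ℍ, DifferentiableAt ℂ (B ∘ ofComplex) (z : ℂ)) (a b : ℂ) (z : ℍ) :
    DifferentiableAt ℂ (injG A B a b ∘ ofComplex) (z : ℂ) := by
  have h1 := (hA z).const_mul a
  have h2 := (inj_differentiableAt_dagger hB z).const_mul b
  exact h1.add h2

theorem inj_injG_periodic {N : ℕ} {A B : ℍ → ℂ}
    (hperA : ∀ δ : SL(2, ℤ), ∀ z : ℍ, A (δ • ((N : ℝ) +ᵥ z)) = A (δ • z))
    (hperB : ∀ δ : SL(2, ℤ), ∀ z : ℍ, B (δ • ((N : ℝ) +ᵥ z)) = B (δ • z)) (a b : ℂ)
    (δ : SL(2, ℤ)) (z : ℍ) :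
    injG A B a b (δ • ((N : ℝ) +ᵥ z)) = injG A B a b (δ • z) := by
  unfold injG
  rw [hperA δ z, negConj_smul, negConj_smul, negConj_vadd]
  have h := hperB (jConjSL δ) ((-(N : ℝ)) +ᵥ negConj z)
  have h2 : (N : ℝ) +ᵥ ((-(N : ℝ)) +ᵥ negConj z) = negConj z := by
    rw [vadd_vadd]; simp
  rw [h2] at h
  rw [h]

theorem inj_injG_tendsto {A B : ℍ → ℂ}
    (hlimA : ∀ δ : SL(2, ℤ), ∃ L : ℂ, Tendsto (fun w : ℍ => A (δ • w)) atImInfty (𝓝 L))
    (hlimB : ∀ δ : SL(2, ℤ), ∃ L : ℂ, Tendsto (fun w : ℍ => B (δ • w)) atImInfty (𝓝 L)) (a b : ℂ)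
    (δ : SL(2, ℤ)) :
    ∃ L : ℂ, Tendsto (fun w : ℍ => injG A B a b (δ • w)) atImInfty (𝓝 L) := by
  obtain ⟨LA, hLA⟩ := hlimA δ
  obtain ⟨LB, hLB⟩ := hlimB (jConjSL δ)
  refine ⟨a * LA + b * conj LB, ?_⟩
  unfold injG
  have h1 : Tendsto (fun w : ℍ => conj (B (negConj (δ • w)))) atImInfty (𝓝 (conj LB)) := by
    have h2 : Tendsto (fun w : ℍ => B ((jConjSL δ) • negConj w)) atImInfty (𝓝 LB) :=
      hLB.comp tendsto_negConj_atImInfty
    have h3 := (Complex.continuous_conj.tendsto LB).comp h2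
    refine h3.congr (fun w => ?_)
    simp only [Function.comp_apply]
    rw [negConj_smul]
  exact (hLA.const_mul a).add (h1.const_mul b)

/-- abstract form of (E1): two holomorphic functions `A`, `B` on `ℍ` with good behaviour at all
cusps and such that `A(γ z) - A(z) + B(-conj(γ z)) - B(-conj z) = 0` for `γ ∈ Γ₀(N)` are
constant. -/
theorem inj_const_of_sum_invariant {N : ℕ} (hE0 : MaxPrincipleStmt N) {A B : ℍ → ℂ}
    (hA : ∀ z : ℍ, DifferentiableAt ℂ (A ∘ ofComplex) (z : ℂ))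
    (hB : ∀ z : ℍ, DifferentiableAt ℂ (B ∘ ofComplex) (z : ℂ))
    (hinv : ∀ γ ∈ Gamma0 N, ∀ z : ℍ,
      A (γ • z) - A z + (B (negConj (γ • z)) - B (negConj z)) = 0)
    (hperA : ∀ δ : SL(2, ℤ), ∀ z : ℍ, A (δ • ((N : ℝ) +ᵥ z)) = A (δ • z))
    (hperB : ∀ δ : SL(2, ℤ), ∀ z : ℍ, B (δ • ((N : ℝ) +ᵥ z)) = B (δ • z))
    (hlimA : ∀ δ : SL(2, ℤ), ∃ L : ℂ, Tendsto (fun w : ℍ => A (δ • w)) atImInfty (𝓝 L))
    (hlimB : ∀ δ : SL(2, ℤ), ∃ L : ℂ, Tendsto (fun w : ℍ => B (δ • w)) atImInfty (𝓝 L)) :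
    (∀ z w : ℍ, A z = A w) ∧ (∀ z w : ℍ, B z = B w) := by
  -- `G₁ = A + B†`
  have hG1 : ∀ z w : ℍ, injG A B 1 1 z = injG A B 1 1 w := by
    refine hE0 _ (inj_differentiableAt_injG hA hB 1 1) ?_
      (inj_injG_periodic hperA hperB 1 1) (inj_injG_tendsto hlimA hlimB 1 1)
    intro γ hγ z
    have h := congrArg Complex.re (hinv γ hγ z)
    simp only [injG, one_mul, Complex.add_re, Complex.conj_re, Complex.sub_re,
      Complex.zero_re] at h ⊢
    linarith
  -- `G₂ = -i (A - B†)`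
  have hG2 : ∀ z w : ℍ, injG A B (-Complex.I) Complex.I z = injG A B (-Complex.I) Complex.I w := by
    refine hE0 _ (inj_differentiableAt_injG hA hB _ _) ?_
      (inj_injG_periodic hperA hperB _ _) (inj_injG_tendsto hlimA hlimB _ _)
    intro γ hγ z
    have h := congrArg Complex.im (hinv γ hγ z)
    simp only [injG, Complex.add_re, Complex.mul_re, Complex.neg_re, Complex.I_re, Complex.neg_im,
      Complex.I_im, Complex.conj_re, Complex.conj_im, Complex.add_im, Complex.sub_im,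
      Complex.zero_im] at h ⊢
    linarith
  have hAc : ∀ z w : ℍ, A z = A w := by
    intro z w
    have h1 := hG1 z w
    have h2 := hG2 z w
    simp only [injG] at h1 h2
    linear_combination (1 / 2 : ℂ) * h1 + (Complex.I / 2) * h2 +
      ((A z - A w + conj (B (negConj w)) - conj (B (negConj z))) / 2) * Complex.I_sq
  have hBc : ∀ z w : ℍ, conj (B (negConj z)) = conj (B (negConj w)) := by
    intro z w
    have h1 := hG1 z w
    have h2 := hG2 z w
    simp only [injG] at h1 h2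
    linear_combination (1 / 2 : ℂ) * h1 - (Complex.I / 2) * h2 +
      ((conj (B (negConj z)) + A w - conj (B (negConj w)) - A z) / 2) * Complex.I_sq
  refine ⟨hAc, fun z w => ?_⟩
  have h := hBc (negConj z) (negConj w)
  rw [negConj_negConj, negConj_negConj] at h
  exact (starRingEnd ℂ).injective h

/-- a cusp form with a constant primitive vanishes -/
theorem inj_eq_zero_of_const {N : ℕ} (u : CuspForm (Gamma0 N) 2) (F : ℍ → ℂ)
    (hF : ∀ τ : ℍ, HasDerivAt (F ∘ ofComplex) (u τ) (τ : ℂ))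
    (h : ∀ z w : ℍ, F z = F w) : u = 0 := by
  apply DFunLike.ext
  intro τ
  have h1 := hF τ
  have h2 : (F ∘ ofComplex) = fun _ => F UpperHalfPlane.I := by
    funext w
    exact h _ _
  rw [h2] at h1
  have h3 : HasDerivAt (fun _ : ℂ => F UpperHalfPlane.I) 0 (τ : ℂ) := hasDerivAt_const _ _
  simpa using h1.unique h3

/-- (E1), with the inputs of modules A, B, C, E0 as hypotheses:
`P_u + ι P_v = 0 ⇒ u = v = 0`. -/
theorem periodMap_add_charInvolution_eq_zero_of {N : ℕ} (hE0 : MaxPrincipleStmt N)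
    {u v : CuspForm (Gamma0 N) 2} {A B : ℍ → ℂ} (hA : IsGoodPrim N u A) (hB : IsGoodPrim N v B)
    (h : periodMap N u + charInvolution N ℂ ℂ (periodMap N v) = 0) : u = 0 ∧ v = 0 := by
  have key := inj_const_of_sum_invariant (N := N) hE0 (A := A) (B := B)
    (fun z => (hA.hasDerivAt z).differentiableAt)
    (fun z => (hB.hasDerivAt z).differentiableAt)
    ?_ hA.cusp_periodic hB.cusp_periodic hA.tendsto_cusp hB.tendsto_cusp
  · exact ⟨inj_eq_zero_of_const u A hA.hasDerivAt key.1, inj_eq_zero_of_const v B hB.hasDerivAt key.2⟩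
  · intro γ hγ z
    have h1 := hA.periodMap_apply ⟨γ, hγ⟩ z
    have h2 := charInvolution_periodMap_apply_of v B hB.periodMap_apply ⟨γ, hγ⟩ z
    have h3 := DFunLike.congr_fun h (Additive.ofMul (⟨γ, hγ⟩ : Gamma0 N))
    rw [AddMonoidHom.add_apply, h1, h2] at h3
    simpa using h3

/-- injectivity of `periodHomPair`, from (E1) and the linearity facts of module B. -/
theorem periodHomPair_injective_of {N : ℕ}
    (hker : ∀ u v : CuspForm (Gamma0 N) 2,
      periodMap N u + charInvolution N ℂ ℂ (periodMap N v) = 0 → u = 0 ∧ v = 0)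
    (hadd : ∀ f g : CuspForm (Gamma0 N) 2, periodMap N (f + g) = periodMap N f + periodMap N g)
    (hsmul : ∀ (c : ℂ) (f : CuspForm (Gamma0 N) 2), periodMap N (c • f) = c • periodMap N f)
    (happly : ∀ f g : CuspForm (Gamma0 N) 2, periodHomPair N (f, g) =
      (periodMap N f + charInvolution N ℂ ℂ (periodMap N f)) +
        (periodMap N g - charInvolution N ℂ ℂ (periodMap N g))) :
    Function.Injective (periodHomPair N) := by
  rw [← LinearMap.ker_eq_bot, LinearMap.ker_eq_bot']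
  rintro ⟨f, g⟩ hfg
  rw [happly] at hfg
  have hsub : periodMap N (f - g) = periodMap N f - periodMap N g := by
    rw [sub_eq_add_neg, hadd, ← neg_one_smul ℂ g, hsmul]
    simp [sub_eq_add_neg]
  have h : periodMap N (f + g) + charInvolution N ℂ ℂ (periodMap N (f - g)) = 0 := by
    rw [hadd, hsub, map_sub]
    rw [← hfg]
    abel
  obtain ⟨h1, h2⟩ := hker _ _ h
  have hf : f = 0 := by
    have : (2 : ℂ) • f = 0 := by
      rw [two_smul]
      calc f + f = (f + g) + (f - g) := by abel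
        _ = 0 := by rw [h1, h2, add_zero]
    exact (smul_eq_zero.1 this).resolve_left two_ne_zero
  have hg : g = 0 := by
    rw [hf, zero_add] at h1
    exact h1
  rw [hf, hg]
  rfl

end

end Fermat.Agent.S21x
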