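/-
S21 helper library, module D (`s21_plan` row `D_Involution`, helper62): the involution
`z ↦ -conj z` of the upper half plane and its compatibility with `jConjSL`; the character
involution applied to the period map in terms of `negConj`.
-/
import Fermat.Agent.S21x.Defs

set_option autoImplicit false

open UpperHalfPlane CongruenceSubgroup Filter Topology ModularCurve ModularCurve.Period
open Matrix.SpecialLinearGroup
open scoped MatrixGroups Real Manifold

namespace Fermat.Agent.S21x

noncomputable section

/-- `z ↦ -conj z` on the upper half plane -/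
def negConj (z : ℍ) : ℍ :=
  ⟨-(starRingEnd ℂ) (z : ℂ), by simpa using z.im_pos⟩

@[simp] theorem negConj_coe (z : ℍ) : ((negConj z : ℍ) : ℂ) = -(starRingEnd ℂ) (z : ℂ) := rfl

@[simp] theorem negConj_negConj (z : ℍ) : negConj (negConj z) = z := by
  apply UpperHalfPlane.ext
  simp [negConj_coe]

theorem negConj_involutive : Function.Involutive negConj := negConj_negConj

@[simp] theorem negConj_im (z : ℍ) : (negConj z).im = z.im := by
  show ((negConj z : ℍ) : ℂ).im = (z : ℂ).im
  simp [negConj_coe]

@[simp] theorem negConj_re (z : ℍ) : (negConj z).re = -z.re := by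
  show ((negConj z : ℍ) : ℂ).re = -(z : ℂ).re
  simp [negConj_coe]

theorem negConj_smul (γ : SL(2, ℤ)) (z : ℍ) :
    negConj (γ • z) = (jConjSL γ) • negConj z := by
  apply UpperHalfPlane.ext
  rw [negConj_coe, UpperHalfPlane.coe_specialLinearGroup_apply,
    UpperHalfPlane.coe_specialLinearGroup_apply]
  simp only [jConjSL_coe, jConjMat_apply_zero_zero, jConjMat_apply_zero_one,
    jConjMat_apply_one_zero, jConjMat_apply_one_one, negConj_coe, map_div₀, map_add, map_mul,
    algebraMap_int_eq, Int.coe_castRingHom, Int.cast_neg, Complex.ofReal_neg,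
    Complex.ofReal_intCast, map_intCast, neg_mul_neg]
  ring

/-- variant: `jConjSL γ • z = negConj (γ • negConj z)` -/
theorem jConjSL_smul (γ : SL(2, ℤ)) (z : ℍ) :
    (jConjSL γ) • z = negConj (γ • negConj z) := by
  rw [negConj_smul, negConj_negConj]

/-- `negConj` commutes with real translations up to sign. -/
theorem negConj_vadd (x : ℝ) (z : ℍ) : negConj (x +ᵥ z) = (-x) +ᵥ negConj z := by
  apply UpperHalfPlane.ext
  simp only [negConj_coe, UpperHalfPlane.coe_vadd, map_add, Complex.conj_ofReal,
    Complex.ofReal_neg]
  ring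

/-- `negConj` preserves `atImInfty`. -/
theorem tendsto_negConj_atImInfty : Tendsto negConj atImInfty atImInfty := by
  rw [UpperHalfPlane.atImInfty, tendsto_comap_iff]
  have : (UpperHalfPlane.im ∘ negConj) = UpperHalfPlane.im := by
    funext z; simp
  rw [this]
  exact tendsto_comap

/-- The character involution applied to the period map, computed from ANY formula
`periodMap N f γ = F (γ z) - F z` valid for all `γ ∈ Γ₀(N)` and all `z` (e.g. `F = prim f`,
module B `periodMap_apply`). -/
theorem charInvolution_periodMap_apply_of {N : ℕ} (f : CuspForm (Gamma0 N) 2) (F : ℍ → ℂ)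
    (hF : ∀ (γ : Gamma0 N) (z : ℍ),
      periodMap N f (Additive.ofMul γ) = F ((γ : SL(2, ℤ)) • z) - F z)
    (γ : Gamma0 N) (z : ℍ) :
    (charInvolution N ℂ ℂ (periodMap N f)) (Additive.ofMul γ) =
      F (negConj ((γ : SL(2, ℤ)) • z)) - F (negConj z) := by
  rw [charInvolution_apply, toMul_ofMul, hF (jConjGamma0 N γ) (negConj z), jConjGamma0_coe,
    negConj_smul]

end

end Fermat.Agent.S21x
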