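/-
S21 helper library, module D, final wiring (helper62): the Spec form of
`charInvolution_periodMap_apply`, from `Involution.lean` and `PeriodMap.lean`.
-/
import Fermat.Agent.S21x.Involution
import Fermat.Agent.S21x.PeriodMap

set_option autoImplicit false

open UpperHalfPlane CongruenceSubgroup ModularCurve ModularCurve.Period
open scoped MatrixGroups

namespace Fermat.Agent.S21x

variable {N : ℕ} [NeZero N]

theorem charInvolution_periodMap_apply (f : CuspForm (Gamma0 N) 2) (γ : Gamma0 N) (z : ℍ) :
    (charInvolution N ℂ ℂ (periodMap N f)) (Additive.ofMul γ) =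
      prim f (negConj ((γ : SL(2, ℤ)) • z)) - prim f (negConj z) :=
  charInvolution_periodMap_apply_of f (prim f) (fun γ z => periodMap_apply f γ z) γ z

end Fermat.Agent.S21x
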