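import Mathlib

/-!
# S21 helper: analytic core of the maximum principle on `Γ₀(N)\ℍ*`

Mathlib-only.  For holomorphic functions on the upper half plane:
* `mc_const_of_isMax`: if the real part has a global maximum at an interior point, the function is
  constant;
* `mc_const_of_le_lim`: an `N`-periodic holomorphic function with a limit `L` at `i∞` whose real
  part is everywhere `≤ re L` is constant;
* `mc_exists_max`: for an `N`-periodic holomorphic function with a limit `L` at `i∞`, the supremum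
  of the real part over `{im ≥ y₀}` is attained at a point, or is bounded by `re L`.

All declarations carry the prefix `mc_`.
-/

set_option autoImplicit false
set_option linter.unusedSectionVars false

open UpperHalfPlane Filter Function Metric Set
open scoped Topology Manifold Real

namespace Fermat.Agent.S21x

local notation "𝕢" => Periodic.qParam

/-- Open mapping theorem: a holomorphic function on a preconnected open set whose real part attains
a maximum is constant. -/
theorem mc_eq_of_re_le {U : Set ℂ} (hU : IsOpen U) (hUc : IsPreconnected U) {g : ℂ → ℂ}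
    (hg : DifferentiableOn ℂ g U) {c : ℂ} (hc : c ∈ U) (hmax : ∀ z ∈ U, (g z).re ≤ (g c).re) :
    ∀ z ∈ U, g z = g c := by
  have han : AnalyticOnNhd ℂ g U := hg.analyticOnNhd hU
  rcases han.is_constant_or_isOpen hUc with ⟨w, hw⟩ | hopen
  · intro z hz
    rw [hw z hz, hw c hc]
  · exfalso
    have himg : IsOpen (g '' U) := hopen U subset_rfl hU
    have hmem : g c ∈ g '' U := ⟨c, hc, rfl⟩
    obtain ⟨ε, hε, hball⟩ := Metric.isOpen_iff.mp himg (g c) hmem
    have hpt : g c + ((ε / 2 : ℝ) : ℂ) ∈ Metric.ball (g c) ε := by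
      rw [Metric.mem_ball, dist_eq_norm, add_sub_cancel_left, Complex.norm_real,
        Real.norm_of_nonneg (by positivity)]
      linarith
    obtain ⟨z, hz, hzeq⟩ := hball hpt
    have h1 := hmax z hz
    rw [hzeq, Complex.add_re, Complex.ofReal_re] at h1
    linarith

/-- The open upper half plane as a subset of `ℂ` is open and preconnected. -/
theorem mc_isOpen_upper : IsOpen {z : ℂ | 0 < z.im} :=
  isOpen_lt continuous_const Complex.continuous_im

theorem mc_isPreconnected_upper : IsPreconnected {z : ℂ | 0 < z.im} :=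
  (convex_halfSpace_im_gt 0).isPreconnected

/-- If the real part of a holomorphic function on `ℍ` has a global maximum at an interior point,
the function is constant. -/
theorem mc_const_of_isMax (G : ℍ → ℂ)
    (hG : ∀ z : ℍ, DifferentiableAt ℂ (G ∘ ofComplex) (z : ℂ)) (z0 : ℍ)
    (h : ∀ z : ℍ, (G z).re ≤ (G z0).re) : ∀ z : ℍ, G z = G z0 := by
  have hd : DifferentiableOn ℂ (G ∘ ofComplex) {z : ℂ | 0 < z.im} := fun z hz =>
    (hG ⟨z, hz⟩).differentiableWithinAt
  have hval : ∀ z : ℍ, (G ∘ ofComplex) (z : ℂ) = G z := fun z => by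
    simp [Function.comp_apply, ofComplex_apply]
  have key := mc_eq_of_re_le mc_isOpen_upper mc_isPreconnected_upper hd
    (c := (z0 : ℂ)) z0.im_pos (fun z hz => by
      have := h ⟨z, hz⟩
      rw [hval z0]
      have h2 : (G ∘ ofComplex) z = G ⟨z, hz⟩ := hval ⟨z, hz⟩
      rw [h2]
      exact this)
  intro z
  have := key (z : ℂ) z.im_pos
  rwa [hval z, hval z0] at this

/-- periodicity on `ℍ` gives periodicity of `F ∘ ofComplex` on all of `ℂ`. -/
theorem mc_periodic_comp_ofComplex (F : ℍ → ℂ) (N : ℕ)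
    (hper : ∀ z : ℍ, F ((N : ℝ) +ᵥ z) = F z) : Periodic (F ∘ ofComplex) (N : ℝ) := by
  intro w
  by_cases hw : 0 < w.im
  · have hw' : 0 < (w + (N : ℝ)).im := by simpa using hw
    simp only [Function.comp_apply, ofComplex_apply_of_im_pos hw', ofComplex_apply_of_im_pos hw]
    rw [← hper ⟨w, hw⟩]
    congr 1
    ext
    simp [add_comm]
  · have hw0 : w.im ≤ 0 := not_lt.mp hw
    have hw' : (w + (N : ℝ)).im ≤ 0 := by simpa using hw0
    rw [Function.comp_apply, Function.comp_apply, ofComplex_apply_of_im_nonpos hw',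
      ofComplex_apply_of_im_nonpos hw0]

section Periodic

variable {N : ℕ} (hN : 0 < N) (F : ℍ → ℂ)
  (hF : ∀ z : ℍ, DifferentiableAt ℂ (F ∘ ofComplex) (z : ℂ))
  (hper : ∀ z : ℍ, F ((N : ℝ) +ᵥ z) = F z)
  {L : ℂ} (hlim : Tendsto F atImInfty (𝓝 L))

include hN hF hper hlim

theorem mc_mdiff : MDiff F := fun z => UpperHalfPlane.mdifferentiableAt_iff.mpr (hF z)

theorem mc_bdd : IsBoundedAtImInfty F := hlim.isBigO_one ℝ

/-- the cusp function is holomorphic on the open unit disc -/
theorem mc_differentiableOn_cuspFunction :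
    DifferentiableOn ℂ (UpperHalfPlane.cuspFunction (N : ℝ) F) (Metric.ball 0 1) :=
  UpperHalfPlane.differentiableOn_cuspFunction_ball (by exact_mod_cast hN)
    (mc_periodic_comp_ofComplex F N hper) (mc_mdiff hN F hF hper hlim) (mc_bdd hN F hF hper hlim)

/-- the cusp function takes the value `L` at `0` -/
theorem mc_cuspFunction_zero : UpperHalfPlane.cuspFunction (N : ℝ) F 0 = L := by
  have hh : (0 : ℝ) < N := by exact_mod_cast hN
  have han := UpperHalfPlane.analyticAt_cuspFunction_zero hh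
    (mc_periodic_comp_ofComplex F N hper) (mc_mdiff hN F hF hper hlim) (mc_bdd hN F hF hper hlim)
  rw [UpperHalfPlane.cuspFunction_apply_zero hh han (mc_periodic_comp_ofComplex F N hper)]
  exact hlim.limUnder_eq

/-- the cusp function evaluated at `q(z)` -/
theorem mc_cuspFunction_qParam (z : ℍ) :
    UpperHalfPlane.cuspFunction (N : ℝ) F (𝕢 (N : ℝ) z) = F z :=
  UpperHalfPlane.eq_cuspFunction z (by exact_mod_cast hN.ne')
    (mc_periodic_comp_ofComplex F N hper)

/-- every nonzero point of the unit disc is `q(z)` for some `z ∈ ℍ` -/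
theorem mc_exists_qParam_eq {q : ℂ} (hq : ‖q‖ < 1) (hq0 : q ≠ 0) :
    ∃ z : ℍ, 𝕢 (N : ℝ) z = q ∧ z.im = -(N : ℝ) / (2 * π) * Real.log ‖q‖ := by
  have hh : (0 : ℝ) < N := by exact_mod_cast hN
  have him : 0 < (Periodic.invQParam (N : ℝ) q).im :=
    Periodic.im_invQParam_pos_of_norm_lt_one hh hq hq0
  refine ⟨⟨Periodic.invQParam (N : ℝ) q, him⟩, ?_, ?_⟩
  · exact Periodic.qParam_right_inv hh.ne' hq0
  · exact Periodic.im_invQParam (N : ℝ) q

/-- If `re F ≤ re L` everywhere then `F` is constant. -/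
theorem mc_const_of_le_lim (h : ∀ w : ℍ, (F w).re ≤ L.re) : ∀ w : ℍ, F w = L := by
  have hd := mc_differentiableOn_cuspFunction hN F hF hper hlim
  have h0 := mc_cuspFunction_zero hN F hF hper hlim
  have key := mc_eq_of_re_le Metric.isOpen_ball (convex_ball (0 : ℂ) 1).isPreconnected hd
    (c := 0) (Metric.mem_ball_self one_pos) (fun q hq => by
      rw [h0]
      rcases eq_or_ne q 0 with rfl | hq0
      · rw [h0]
      · obtain ⟨z, hz, -⟩ := mc_exists_qParam_eq hN F hF hper hlim (mem_ball_zero_iff.mp hq) hq0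
        rw [← hz, mc_cuspFunction_qParam hN F hF hper hlim z]
        exact h z)
  intro w
  have hw : 𝕢 (N : ℝ) w ∈ Metric.ball (0 : ℂ) 1 := by
    rw [mem_ball_zero_iff]
    exact Periodic.norm_qParam_lt_one (by exact_mod_cast hN) w.im_pos
  have := key _ hw
  rwa [mc_cuspFunction_qParam hN F hF hper hlim w, h0] at this

/-- The supremum of `re F` over `{im ≥ y₀}` is attained at a point, or bounded by `re L`. -/
theorem mc_exists_max (y0 : ℝ) (hy0 : 0 < y0) :
    (∃ w : ℍ, y0 ≤ w.im ∧ ∀ w' : ℍ, y0 ≤ w'.im → (F w').re ≤ (F w).re) ∨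
      (∀ w' : ℍ, y0 ≤ w'.im → (F w').re ≤ L.re) := by
  have hh : (0 : ℝ) < N := by exact_mod_cast hN
  set r : ℝ := Real.exp (-2 * π * y0 / N) with hr
  have hr1 : r < 1 := by
    rw [hr, Real.exp_lt_one_iff]
    have : 0 < 2 * π * y0 / N := by positivity
    have h2 : -2 * π * y0 / N = -(2 * π * y0 / N) := by ring
    rw [h2]; linarith
  have hr0 : 0 < r := Real.exp_pos _
  have hd := mc_differentiableOn_cuspFunction hN F hF hper hlim
  have h0 := mc_cuspFunction_zero hN F hF hper hlim
  have hsub : Metric.closedBall (0 : ℂ) r ⊆ Metric.ball 0 1 := Metric.closedBall_subset_ball hr1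
  have hcont : ContinuousOn (fun q => (UpperHalfPlane.cuspFunction (N : ℝ) F q).re)
      (Metric.closedBall (0 : ℂ) r) :=
    Complex.continuous_re.comp_continuousOn (hd.continuousOn.mono hsub)
  obtain ⟨q0, hq0mem, hq0max⟩ := (isCompact_closedBall (0 : ℂ) r).exists_isMaxOn
    ⟨0, Metric.mem_closedBall_self hr0.le⟩ hcont
  -- points with `im ≥ y0` land in the closed ball
  have hland : ∀ w' : ℍ, y0 ≤ w'.im → 𝕢 (N : ℝ) w' ∈ Metric.closedBall (0 : ℂ) r := by
    intro w' hw'
    rw [mem_closedBall_zero_iff, Periodic.norm_qParam, hr]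
    apply Real.exp_le_exp.mpr
    have h1 : -2 * π * (w' : ℂ).im / N = -(2 * π / N) * w'.im := by
      rw [UpperHalfPlane.coe_im]; ring
    have h2 : -2 * π * y0 / N = -(2 * π / N) * y0 := by ring
    rw [h1, h2]
    have hpos : 0 < 2 * π / (N : ℝ) := by positivity
    nlinarith
  have hle : ∀ w' : ℍ, y0 ≤ w'.im →
      (F w').re ≤ (UpperHalfPlane.cuspFunction (N : ℝ) F q0).re := by
    intro w' hw'
    have := isMaxOn_iff.mp hq0max _ (hland w' hw')
    rwa [mc_cuspFunction_qParam hN F hF hper hlim w'] at this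
  rcases eq_or_ne q0 0 with rfl | hq0
  · right
    intro w' hw'
    have := hle w' hw'
    rwa [h0] at this
  · left
    have hq0lt : ‖q0‖ < 1 := mem_ball_zero_iff.mp (hsub hq0mem)
    obtain ⟨w, hw, hwim⟩ := mc_exists_qParam_eq hN F hF hper hlim hq0lt hq0
    refine ⟨w, ?_, ?_⟩
    · rw [hwim]
      have hq0r : ‖q0‖ ≤ r := mem_closedBall_zero_iff.mp hq0mem
      have hnpos : 0 < ‖q0‖ := norm_pos_iff.mpr hq0
      have hlog : Real.log ‖q0‖ ≤ -2 * π * y0 / N := by
        have := Real.log_le_log hnpos hq0r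
        rwa [hr, Real.log_exp] at this
      have hpos : 0 < (N : ℝ) / (2 * π) := by positivity
      have h3 : -(N : ℝ) / (2 * π) * Real.log ‖q0‖ = (N : ℝ) / (2 * π) * (-Real.log ‖q0‖) := by
        ring
      rw [h3]
      have h4 : y0 = (N : ℝ) / (2 * π) * (2 * π * y0 / N) := by
        field_simp
      rw [h4]
      apply mul_le_mul_of_nonneg_left _ hpos.le
      have h5 : -2 * π * y0 / N = -(2 * π * y0 / N) := by ring
      rw [h5] at hlog
      linarith
    · intro w' hw'
      have := hle w' hw'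
      rwa [← hw, mc_cuspFunction_qParam hN F hF hper hlim w] at this

end Periodic

/-- **(E0a)** Finite family version, case-free interface: a finite family of holomorphic
`N`-periodic functions on `ℍ` with limits at `i∞`, such that every value of every real part is also
a value of some real part at a point with `im ≥ y₀`, contains a constant function. -/
theorem mc_exists_const {ι : Type} [Finite ι] [Nonempty ι] (N : ℕ) [NeZero N] (F : ι → ℍ → ℂ)
    (hF : ∀ (i : ι) (z : ℍ), DifferentiableAt ℂ (F i ∘ ofComplex) (z : ℂ))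
    (hper : ∀ (i : ι) (z : ℍ), F i ((N : ℝ) +ᵥ z) = F i z)
    (hlim : ∀ i, ∃ L : ℂ, Filter.Tendsto (F i) atImInfty (nhds L))
    (y0 : ℝ) (hy0 : 0 < y0)
    (hfd : ∀ (i : ι) (z : ℍ), ∃ (j : ι) (w : ℍ), y0 ≤ w.im ∧ (F i z).re = (F j w).re) :
    ∃ i, ∀ z w : ℍ, F i z = F i w := by
  have hN : 0 < N := Nat.pos_of_ne_zero (NeZero.ne N)
  -- a bound `m i` for each `i`, attained at an interior point or at the cusp
  have hP : ∀ i, ∃ m : ℝ, (∀ w' : ℍ, y0 ≤ w'.im → (F i w').re ≤ m) ∧
      ((∃ w : ℍ, (F i w).re = m) ∨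
        (∃ L : ℂ, Filter.Tendsto (F i) atImInfty (nhds L) ∧ L.re = m)) := by
    intro i
    obtain ⟨L, hL⟩ := hlim i
    rcases mc_exists_max hN (F i) (hF i) (hper i) hL y0 hy0 with ⟨w, -, hw⟩ | hle
    · exact ⟨(F i w).re, hw, Or.inl ⟨w, rfl⟩⟩
    · exact ⟨L.re, hle, Or.inr ⟨L, hL, rfl⟩⟩
  choose m hm1 hm2 using hP
  obtain ⟨i0, hi0⟩ := Finite.exists_max m
  have hall : ∀ z : ℍ, (F i0 z).re ≤ m i0 := by
    intro z
    obtain ⟨j, w, hw, hzw⟩ := hfd i0 z
    rw [hzw]
    exact (hm1 j w hw).trans (hi0 j)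
  refine ⟨i0, ?_⟩
  rcases hm2 i0 with ⟨w0, hw0⟩ | ⟨L, hL, hLm⟩
  · have key := mc_const_of_isMax (F i0) (hF i0) w0 (fun z => by rw [hw0]; exact hall z)
    intro z w
    rw [key z, key w]
  · have key := mc_const_of_le_lim hN (F i0) (hF i0) (hper i0) hL
      (fun w => by rw [hLm]; exact hall w)
    intro z w
    rw [key z, key w]

end Fermat.Agent.S21x
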