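import Mathlib

/-! S21 project, module F1_PermOp: permutation operators on `X → ℂ`, eigenspace dimensions via
traces of projections, and the operators `gop g` attached to a group action. -/

set_option autoImplicit false

namespace Fermat.Agent.S21x

open Module

section Perm
variable {X : Type} [Fintype X] [DecidableEq X]

/-- the permutation operator `v ↦ v ∘ σ⁻¹` on `X → ℂ` -/
noncomputable def permOp (σ : Equiv.Perm X) : (X → ℂ) →ₗ[ℂ] (X → ℂ) :=
  LinearMap.funLeft ℂ ℂ (σ⁻¹ : Equiv.Perm X)

@[simp] theorem permOp_apply (σ : Equiv.Perm X) (v : X → ℂ) (x : X) :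
    permOp σ v x = v (σ⁻¹ x) := rfl

theorem permOp_one : permOp (1 : Equiv.Perm X) = 1 := by
  ext v x; simp

theorem permOp_mul (σ τ : Equiv.Perm X) : permOp (σ * τ) = permOp σ * permOp τ := by
  ext v x; simp [mul_inv_rev]

theorem permOp_eq_toLin' (σ : Equiv.Perm X) :
    permOp σ = Matrix.toLin' ((σ⁻¹ : Equiv.Perm X).permMatrix ℂ) := by
  apply LinearMap.ext
  intro v
  rw [Matrix.toLin'_apply, Matrix.permMatrix_mulVec]
  rfl

theorem coh_trace_permOp (σ : Equiv.Perm X) :
    LinearMap.trace ℂ (X → ℂ) (permOp σ) = (Fintype.card (Function.fixedPoints σ) : ℂ) := by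
  rw [permOp_eq_toLin', Matrix.trace_toLin'_eq, Matrix.trace_permutation]
  congr 1
  have hset : Function.fixedPoints (⇑(σ⁻¹ : Equiv.Perm X)) = Function.fixedPoints (⇑σ) := by
    ext x
    simp only [Function.mem_fixedPoints, Function.IsFixedPt]
    constructor
    · intro h; calc σ x = σ ((σ⁻¹ : Equiv.Perm X) x) := by rw [h]
        _ = x := by simp
    · intro h; calc (σ⁻¹ : Equiv.Perm X) x = (σ⁻¹ : Equiv.Perm X) (σ x) := by rw [h]
        _ = x := by simp
  rw [hset, ← _root_.Nat.card_coe_set_eq, Nat.card_eq_fintype_card]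

theorem finrank_ker_one_add_permOp (σ : Equiv.Perm X) (h : σ * σ = 1) :
    2 * Module.finrank ℂ (LinearMap.ker (1 + permOp σ)) + Fintype.card (Function.fixedPoints σ)
      = Fintype.card X := by
  have hP : permOp σ * permOp σ = 1 := by rw [← permOp_mul, h, permOp_one]
  set E : (X → ℂ) →ₗ[ℂ] (X → ℂ) := (2⁻¹ : ℂ) • (1 - permOp σ) with hE
  have hproj : LinearMap.IsProj (LinearMap.ker (1 + permOp σ)) E := by
    constructor
    · intro v
      rw [LinearMap.mem_ker]
      have : (1 + permOp σ) * E = 0 := by
        rw [hE, mul_smul_comm]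
        have : (1 + permOp σ) * (1 - permOp σ) = 0 := by
          rw [add_mul, mul_sub, mul_sub, hP]; simp
        rw [this, smul_zero]
      have h2 := congrArg (fun f : (X → ℂ) →ₗ[ℂ] (X → ℂ) => f v) this
      simpa using h2
    · intro v hv
      rw [LinearMap.mem_ker] at hv
      have hv' : permOp σ v = -v := by
        have : v + permOp σ v = 0 := by simpa using hv
        exact eq_neg_of_add_eq_zero_right this
      simp only [hE, LinearMap.smul_apply, LinearMap.sub_apply, Module.End.one_apply, hv']
      rw [sub_neg_eq_add, ← two_smul ℂ v, smul_smul]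
      norm_num
  have htr := hproj.trace
  rw [hE, map_smul, map_sub, LinearMap.trace_one, coh_trace_permOp, Module.finrank_pi,
    smul_eq_mul] at htr
  have : (2 * Module.finrank ℂ (LinearMap.ker (1 + permOp σ))
      + Fintype.card (Function.fixedPoints σ) : ℂ) = (Fintype.card X : ℂ) := by
    rw [← htr]; ring
  exact_mod_cast this

theorem finrank_ker_one_add_permOp_add_sq (σ : Equiv.Perm X) (h : σ * σ * σ = 1) :
    3 * Module.finrank ℂ (LinearMap.ker (1 + permOp σ + permOp σ * permOp σ))
      + 2 * Fintype.card (Function.fixedPoints σ) = 2 * Fintype.card X := by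
  set U := permOp σ with hU
  have hP : U * U * U = 1 := by rw [hU, ← permOp_mul, ← permOp_mul, h, permOp_one]
  have hP' : ∀ v, U (U (U v)) = v := by
    intro v
    have := congrArg (fun f : (X → ℂ) →ₗ[ℂ] (X → ℂ) => f v) hP
    simpa using this
  have hfix2 : Fintype.card (Function.fixedPoints (σ * σ)) =
      Fintype.card (Function.fixedPoints σ) := by
    apply Fintype.card_congr
    refine Equiv.subtypeEquivRight ?_
    intro x
    simp only [Function.mem_fixedPoints, Function.IsFixedPt, Equiv.Perm.mul_apply]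
    constructor
    · intro hx
      have : σ (σ (σ x)) = x := by
        have := congrArg (fun τ : Equiv.Perm X => τ x) h
        simpa using this
      rw [hx] at this
      exact this
    · intro hx; rw [hx, hx]
  set E : (X → ℂ) →ₗ[ℂ] (X → ℂ) := (3⁻¹ : ℂ) • ((2 : ℂ) • 1 - U - U * U) with hE
  have hEv : ∀ v, E v = (3⁻¹ : ℂ) • ((2 : ℂ) • v - U v - U (U v)) := by
    intro v
    simp [hE]
  have hproj : LinearMap.IsProj (LinearMap.ker (1 + U + U * U)) E := by
    constructor
    · intro v
      rw [LinearMap.mem_ker]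
      simp only [LinearMap.add_apply, Module.End.one_apply, Module.End.mul_apply, hEv, map_smul,
        map_sub, hP']
      module
    · intro v hv
      rw [LinearMap.mem_ker] at hv
      have hv' : U v + U (U v) = -v := by
        have : v + U v + U (U v) = 0 := by simpa using hv
        linear_combination (exp := 1) this
      rw [hEv, sub_sub, hv', sub_neg_eq_add]
      module
  have htr := hproj.trace
  have hUU : U * U = permOp (σ * σ) := by rw [hU, permOp_mul]
  rw [hE, map_smul, map_sub, map_sub, map_smul, LinearMap.trace_one, Module.finrank_pi, hUU, hU,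
    coh_trace_permOp, coh_trace_permOp, hfix2, smul_eq_mul, smul_eq_mul] at htr
  have : (3 * Module.finrank ℂ (LinearMap.ker (1 + permOp σ + permOp (σ * σ)))
      + 2 * Fintype.card (Function.fixedPoints σ) : ℂ) = (2 * Fintype.card X : ℂ) := by
    rw [← htr]; ring
  rw [permOp_mul] at this
  exact_mod_cast this

end Perm


section GroupAction
variable {G : Type} [Group G] {X : Type} [Fintype X] [DecidableEq X] [MulAction G X]

/-- The operator of `g` on functions: `(gop g v) x = v (g⁻¹ • x)`. -/
noncomputable def gop (g : G) : (X → ℂ) →ₗ[ℂ] (X → ℂ) := permOp (MulAction.toPerm g)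

@[simp] theorem gop_apply (g : G) (v : X → ℂ) (x : X) : gop g v x = v (g⁻¹ • x) := by
  rw [gop, permOp_apply]
  congr 1

theorem gop_one : gop (1 : G) = (1 : (X → ℂ) →ₗ[ℂ] (X → ℂ)) := by
  apply LinearMap.ext; intro v; funext x; simp

theorem gop_mul (g h : G) : gop (g * h) = (gop g * gop h : (X → ℂ) →ₗ[ℂ] (X → ℂ)) := by
  apply LinearMap.ext; intro v; funext x; simp [mul_smul]

theorem gop_pow (g : G) (n : ℕ) : gop (g ^ n) = (gop g ^ n : (X → ℂ) →ₗ[ℂ] (X → ℂ)) := by
  induction n with
  | zero => simp [gop_one]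
  | succ n ih => rw [pow_succ, gop_mul, ih, pow_succ]

theorem gop_inv_mul (g : G) : (gop g⁻¹ * gop g : (X → ℂ) →ₗ[ℂ] (X → ℂ)) = 1 := by
  rw [← gop_mul, inv_mul_cancel, gop_one]

theorem gop_mul_inv (g : G) : (gop g * gop g⁻¹ : (X → ℂ) →ₗ[ℂ] (X → ℂ)) = 1 := by
  rw [← gop_mul, mul_inv_cancel, gop_one]

/-- indicator function of a point -/
noncomputable def eX (x : X) : X → ℂ := Pi.single x 1

theorem gop_eX (g : G) (x : X) : gop g (eX x) = eX (g • x) := by
  funext y
  simp only [gop_apply, eX, Pi.single_apply]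
  by_cases h : y = g • x
  · simp [h]
  · have : g⁻¹ • y ≠ x := fun h' => h (by rw [← h', smul_inv_smul])
    simp [h, this]

/-- the functional `v ↦ ∑ x, v x` -/
noncomputable def sumFun : (X → ℂ) →ₗ[ℂ] ℂ where
  toFun v := ∑ x, v x
  map_add' v w := by simp [Finset.sum_add_distrib]
  map_smul' c v := by simp [Finset.mul_sum]

@[simp] theorem sumFun_apply (v : X → ℂ) : sumFun v = ∑ x, v x := rfl

theorem sumFun_gop (g : G) (v : X → ℂ) : sumFun (gop g v) = sumFun v := by
  simp only [sumFun_apply, gop_apply]
  exact Fintype.sum_equiv (MulAction.toPerm g⁻¹) _ _ (fun x => rfl)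

end GroupAction

end Fermat.Agent.S21x
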