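import Fermat.Agent.S21x.PermOp

/-! S21 project, module F2_Shapiro (abstract part): the induced cocycle of a homomorphism
`φ : Γ → ℂ` on the permutation module `X → ℂ` of a transitive `G`-set `X` with point stabiliser `Γ`,
and the resulting dimension bound for "parabolic" homomorphisms. -/

set_option autoImplicit false

namespace Fermat.Agent.S21x

open Module

section Cocycle

variable {G : Type} [Group G] {X : Type} [Fintype X] [DecidableEq X] [MulAction G X]

/-- `1`-cocycles of `G` with values in `X → ℂ`. -/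
def IsCoc (c : G → (X → ℂ)) : Prop := ∀ g h : G, c (g * h) = c g + gop g (c h)

theorem IsCoc.map_one {c : G → (X → ℂ)} (hc : IsCoc c) : c 1 = 0 := by
  have h := hc 1 1
  rw [one_mul, gop_one, Module.End.one_apply] at h
  exact left_eq_add.mp h

theorem IsCoc.map_inv {c : G → (X → ℂ)} (hc : IsCoc c) (g : G) :
    c g⁻¹ = - gop g⁻¹ (c g) := by
  have h := hc g⁻¹ g
  rw [inv_mul_cancel, hc.map_one] at h
  exact eq_neg_of_add_eq_zero_left h.symm

theorem IsCoc.add {c d : G → (X → ℂ)} (hc : IsCoc c) (hd : IsCoc d) :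
    IsCoc (fun g => c g + d g) := by
  intro g h
  simp only [hc g h, hd g h, map_add]
  abel

/-- the coboundary of `v` -/
noncomputable def dcob (v : X → ℂ) (g : G) : X → ℂ := gop g v - v

theorem isCoc_dcob (v : X → ℂ) : IsCoc (dcob (G := G) v) := by
  intro g h
  simp only [dcob, gop_mul, Module.End.mul_apply, map_sub]
  abel

theorem IsCoc.eq_zero_of_closure {c : G → (X → ℂ)} (hc : IsCoc c) (S : Set G)
    (hS : ∀ g ∈ S, c g = 0) (hgen : Subgroup.closure S = ⊤) (g : G) : c g = 0 := by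
  have hg : g ∈ Subgroup.closure S := by rw [hgen]; exact Subgroup.mem_top g
  induction hg using Subgroup.closure_induction with
  | mem x hx => exact hS x hx
  | one => exact hc.map_one
  | mul x y _ _ hx hy => rw [hc x y, hx, hy, map_zero, add_zero]
  | inv x _ hx => rw [hc.map_inv, hx, map_zero, neg_zero]

theorem IsCoc.map_pow {c : G → (X → ℂ)} (hc : IsCoc c) (g : G) (n : ℕ) :
    c (g ^ n) = ∑ i ∈ Finset.range n, (gop g ^ i : (X → ℂ) →ₗ[ℂ] (X → ℂ)) (c g) := by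
  induction n with
  | zero => simp [hc.map_one]
  | succ n ih =>
    rw [pow_succ, hc, ih, Finset.sum_range_succ, gop_pow]

end Cocycle

section Induced

variable {G : Type} [Group G] {X : Type} [Fintype X] [DecidableEq X] [MulAction G X]
variable (x₀ : X) (Γ : Subgroup G)

open Classical in
/-- extension by zero of a homomorphism on `Γ` to a function on `G` -/
noncomputable def extF (φ : Additive Γ →+ ℂ) (g : G) : ℂ :=
  if h : g ∈ Γ then φ (Additive.ofMul ⟨g, h⟩) else 0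

variable {Γ}

theorem extF_of_mem (φ : Additive Γ →+ ℂ) {g : G} (h : g ∈ Γ) :
    extF Γ φ g = φ (Additive.ofMul ⟨g, h⟩) := by
  rw [extF, dif_pos h]

theorem extF_mul (φ : Additive Γ →+ ℂ) {a b : G} (ha : a ∈ Γ) (hb : b ∈ Γ) :
    extF Γ φ (a * b) = extF Γ φ a + extF Γ φ b := by
  rw [extF_of_mem φ ha, extF_of_mem φ hb, extF_of_mem φ (Γ.mul_mem ha hb), ← map_add]
  rfl

theorem extF_one (φ : Additive Γ →+ ℂ) : extF Γ φ 1 = 0 := by
  rw [extF_of_mem φ Γ.one_mem]
  exact map_zero φ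

theorem extF_inv (φ : Additive Γ →+ ℂ) {a : G} (ha : a ∈ Γ) :
    extF Γ φ a⁻¹ = - extF Γ φ a := by
  have h := extF_mul φ (Γ.inv_mem ha) ha
  rw [inv_mul_cancel, extF_one] at h
  exact eq_neg_of_add_eq_zero_left h.symm

theorem extF_add (φ ψ : Additive Γ →+ ℂ) (g : G) :
    extF Γ (φ + ψ) g = extF Γ φ g + extF Γ ψ g := by
  by_cases h : g ∈ Γ
  · rw [extF_of_mem _ h, extF_of_mem _ h, extF_of_mem _ h]; rfl
  · simp [extF, h]

theorem extF_smul (a : ℂ) (φ : Additive Γ →+ ℂ) (g : G) :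
    extF Γ (a • φ) g = a * extF Γ φ g := by
  by_cases h : g ∈ Γ
  · rw [extF_of_mem _ h, extF_of_mem _ h]; rfl
  · simp [extF, h]

variable [MulAction.IsPretransitive G X]

variable (G) in
/-- a section of the orbit map `g ↦ g • x₀` -/
noncomputable def sec (x : X) : G := Classical.choose (MulAction.exists_smul_eq G x₀ x)

theorem sec_smul (x : X) : sec G x₀ x • x₀ = x :=
  Classical.choose_spec (MulAction.exists_smul_eq G x₀ x)

variable (Γ) in
/-- the induced cocycle -/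
noncomputable def indCoc (φ : Additive Γ →+ ℂ) (g : G) : X → ℂ :=
  fun x => extF Γ φ ((sec G x₀ x)⁻¹ * g * sec G x₀ (g⁻¹ • x))

variable (hΓ : ∀ g : G, g ∈ Γ ↔ g • x₀ = x₀)
include hΓ

theorem indCoc_mem (g : G) (x : X) : (sec G x₀ x)⁻¹ * g * sec G x₀ (g⁻¹ • x) ∈ Γ := by
  rw [hΓ, mul_smul, mul_smul, sec_smul, smul_inv_smul, inv_smul_eq_iff, sec_smul]

theorem isCoc_indCoc (φ : Additive Γ →+ ℂ) : IsCoc (indCoc x₀ Γ φ) := by
  intro g h
  funext x
  simp only [indCoc, Pi.add_apply, gop_apply]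
  have e : (sec G x₀ x)⁻¹ * (g * h) * sec G x₀ ((g * h)⁻¹ • x) =
      ((sec G x₀ x)⁻¹ * g * sec G x₀ (g⁻¹ • x)) *
        ((sec G x₀ (g⁻¹ • x))⁻¹ * h * sec G x₀ (h⁻¹ • (g⁻¹ • x))) := by
    rw [mul_inv_rev, mul_smul]
    group
  rw [e, extF_mul φ (indCoc_mem x₀ hΓ g x) (indCoc_mem x₀ hΓ h (g⁻¹ • x))]

theorem indCoc_apply_base (φ : Additive Γ →+ ℂ) {γ : G} (hγ : γ ∈ Γ) :
    indCoc x₀ Γ φ γ x₀ = extF Γ φ γ := by
  have h0 : γ⁻¹ • x₀ = x₀ := by rw [inv_smul_eq_iff, ((hΓ γ).mp hγ)]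
  have hr : sec G x₀ x₀ ∈ Γ := by rw [hΓ, sec_smul]
  simp only [indCoc, h0]
  rw [extF_mul φ (Γ.mul_mem (Γ.inv_mem hr) hγ) hr, extF_mul φ (Γ.inv_mem hr) hγ, extF_inv φ hr]
  ring

omit hΓ in
theorem indCoc_add (φ ψ : Additive Γ →+ ℂ) (g : G) :
    indCoc x₀ Γ (φ + ψ) g = indCoc x₀ Γ φ g + indCoc x₀ Γ ψ g := by
  funext x; simp [indCoc, extF_add]

omit hΓ in
theorem indCoc_smul (a : ℂ) (φ : Additive Γ →+ ℂ) (g : G) :
    indCoc x₀ Γ (a • φ) g = a • indCoc x₀ Γ φ g := by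
  funext x; simp [indCoc, extF_smul]

end Induced

end Fermat.Agent.S21x
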