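/-
S21 project, module F2e (helper62): the hypotheses of the abstract `shapiro_bound` for
`G = SL(2,ℤ)`, `Γ = Γ₀(N)`, `X = SL(2,ℤ) ⧸ Γ₀(N)`, `x₀ = 1·Γ₀(N)`, `z = -1`, `s = S`, `t = T`,
`Q = parabolicHoms ℂ (Γ₀(N)) ℂ`.
-/
import Fermat.Agent.S21x.Shapiro
import Fermat.Prelude.Def_ModularCurve_PeriodHomPair

set_option autoImplicit false

open CongruenceSubgroup ModularCurve.Period
open scoped MatrixGroups

namespace Fermat.Agent.S21x

/-- `hΓ`: `Γ₀(N)` is the stabiliser of the base coset. -/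
theorem sl2_mem_Gamma0_iff_smul (N : ℕ) (g : SL(2, ℤ)) :
    g ∈ Gamma0 N ↔ g • ((1 : SL(2, ℤ)) : SL(2, ℤ) ⧸ Gamma0 N) = ((1 : SL(2, ℤ)) : SL(2, ℤ) ⧸ Gamma0 N) := by
  rw [MulAction.Quotient.smul_mk, QuotientGroup.eq, smul_eq_mul, mul_one, mul_one, inv_mem_iff]

theorem sl2_neg_one_mem_Gamma0 (N : ℕ) : (-1 : SL(2, ℤ)) ∈ Gamma0 N := by
  rw [Gamma0_mem]
  simp

/-- `hzX`: `-1` acts trivially on the cosets of `Γ₀(N)`. -/
theorem sl2_neg_one_smul (N : ℕ) (x : SL(2, ℤ) ⧸ Gamma0 N) : (-1 : SL(2, ℤ)) • x = x := by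
  induction x using QuotientGroup.induction_on with
  | H a =>
    rw [MulAction.Quotient.smul_mk, QuotientGroup.eq, smul_eq_mul]
    have : (-1 * a)⁻¹ * a = (-1 : SL(2, ℤ)) := by
      have h1 : (-1 : SL(2, ℤ)) * a = a * (-1) := by
        rw [neg_mul, one_mul, mul_neg, mul_one]
      rw [h1, mul_inv_rev, mul_assoc, inv_mul_cancel, mul_one]
      rw [inv_eq_iff_mul_eq_one]
      simp
    rw [this]
    exact sl2_neg_one_mem_Gamma0 N

/-- `hs` -/
theorem sl2_S_mul_S : ModularGroup.S * ModularGroup.S = (-1 : SL(2, ℤ)) := by decide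

/-- `hu` -/
theorem sl2_ST_cube :
    (ModularGroup.S * ModularGroup.T) * (ModularGroup.S * ModularGroup.T) *
      (ModularGroup.S * ModularGroup.T) = (-1 : SL(2, ℤ)) := by decide

/-- `hgen` -/
theorem sl2_closure_S_T :
    Subgroup.closure {ModularGroup.S, ModularGroup.T} = (⊤ : Subgroup SL(2, ℤ)) :=
  SpecialLinearGroup.SL2Z_generators

/-- the trace is a class function -/
theorem sl2_trace_conj (r z : SL(2, ℤ)) :
    ((r⁻¹ * z * r : SL(2, ℤ)) : Matrix (Fin 2) (Fin 2) ℤ).trace =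
      (z : Matrix (Fin 2) (Fin 2) ℤ).trace := by
  have h : r * (r⁻¹ * z) = z := mul_inv_cancel_left r z
  rw [Matrix.SpecialLinearGroup.coe_mul, Matrix.trace_mul_comm,
    ← Matrix.SpecialLinearGroup.coe_mul, h]

/-- a parabolic hom, extended by zero, vanishes on every element of trace `±2`. -/
theorem sl2_extF_eq_zero_of_trace {N : ℕ} {φ : Additive (Gamma0 N) →+ ℂ}
    (hφ : φ ∈ parabolicHoms ℂ (Gamma0 N) ℂ) (g : SL(2, ℤ))
    (hg : (g : Matrix (Fin 2) (Fin 2) ℤ).trace ^ 2 = 4) : extF (Gamma0 N) φ g = 0 := by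
  by_cases h : g ∈ Gamma0 N
  · rw [extF_of_mem φ h]
    exact hφ ⟨g, h⟩ hg
  · rw [extF, dif_neg h]

/-- `hQz` -/
theorem sl2_extF_conj_neg_one {N : ℕ} :
    ∀ φ ∈ parabolicHoms ℂ (Gamma0 N) ℂ, ∀ r : SL(2, ℤ),
      extF (Gamma0 N) φ (r⁻¹ * (-1) * r) = 0 := by
  intro φ hφ r
  apply sl2_extF_eq_zero_of_trace hφ
  rw [sl2_trace_conj]
  simp

/-- `hQt` -/
theorem sl2_extF_conj_T_pow {N : ℕ} :
    ∀ φ ∈ parabolicHoms ℂ (Gamma0 N) ℂ, ∀ (r : SL(2, ℤ)) (n : ℕ),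
      extF (Gamma0 N) φ (r⁻¹ * ModularGroup.T ^ n * r) = 0 := by
  intro φ hφ r n
  apply sl2_extF_eq_zero_of_trace hφ
  rw [sl2_trace_conj, ← zpow_natCast, ModularGroup.coe_T_zpow]
  simp [Matrix.trace_fin_two]

/-- count translation: fixed points of `toPerm g` versus `MulAction.fixedBy`. -/
theorem sl2_card_fixedPoints_toPerm {G X : Type} [Group G] [MulAction G X] [Fintype X]
    [DecidableEq X] (g : G) :
    Fintype.card (Function.fixedPoints (MulAction.toPerm g : Equiv.Perm X)) =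
      Nat.card (MulAction.fixedBy X g) := by
  rw [← Nat.card_eq_fintype_card]
  rfl

end Fermat.Agent.S21x
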