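import Fermat.Agent.S21x.Defs

/-!
# S21 project: INTERFACE SPEC v2 (all `sorry`; never imported by final files)

Merged from helper31's v1 and helper51's independent blueprint (doc `S21_spec_helper51`).
Real proofs go to `Fermat/Agent/S21x/<Module>.lean`, namespace `Fermat.Agent.S21x`,
SAME names and statements as here (the namespace `Fermat.Agent.S21x.Spec` is used only in this file).
Table `s21_plan` lists modules/owners.  `prim`, `per` are in `S21x/Defs.lean`.
-/

set_option autoImplicit false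

open UpperHalfPlane CongruenceSubgroup Filter Topology ModularCurve ModularCurve.Period
open Matrix.SpecialLinearGroup
open scoped MatrixGroups Real Manifold

namespace Fermat.Agent.S21x.Spec

noncomputable section

/-! Shared notation `XN, muN, fixS, fixU, orbT` is in `S21x/Defs.lean`. -/

variable {N : ℕ} [NeZero N]

/-! ## Module A: `Prim.lean` (uses the landed `S22x` API: `eichler_spec`, `eichler_add/smul`,
`isCuspFnAll_cuspForm`, `rhoPoly_eval` with `n = 0`, `sep_act_mapGL`, `sep_mapGL_mem_M2pos`) -/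

theorem prim_mdiff (f : CuspForm (Gamma0 N) 2) : MDiff (prim f) := sorry

theorem prim_hasDerivAt (f : CuspForm (Gamma0 N) 2) (τ : ℍ) :
    HasDerivAt (prim f ∘ ofComplex) (f τ) (τ : ℂ) := sorry

theorem prim_tendsto_zero (f : CuspForm (Gamma0 N) 2) : Tendsto (prim f) atImInfty (𝓝 0) := sorry

theorem prim_add (f g : CuspForm (Gamma0 N) 2) : prim (f + g) = prim f + prim g := sorry

theorem prim_smul (c : ℂ) (f : CuspForm (Gamma0 N) 2) : prim (c • f) = c • prim f := sorry

/-- equivariance: `prim f (γ z) - prim f z` does not depend on `z`, for `γ ∈ Γ₀(N)`. -/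
theorem prim_smul_sub (f : CuspForm (Gamma0 N) 2) {γ : SL(2, ℤ)} (hγ : γ ∈ Gamma0 N) (z : ℍ) :
    prim f (γ • z) - prim f z = per f γ := sorry

/-- limits at all cusps. -/
theorem prim_tendsto_cusp (f : CuspForm (Gamma0 N) 2) (δ : SL(2, ℤ)) :
    ∃ L : ℂ, Tendsto (fun w : ℍ => prim f (δ • w)) atImInfty (𝓝 L) := sorry

theorem hasEquivariantPrimitive_prim (f : CuspForm (Gamma0 N) 2) :
    HasEquivariantPrimitive N f (prim f) := sorry

/-! ## Module B: `PeriodMap.lean` (uniqueness of the equivariant primitive; linearity) -/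

theorem hasEquivariantPrimitive_unique {f : CuspForm (Gamma0 N) 2}
    {F₁ F₂ : ℍ → ℂ} (h₁ : HasEquivariantPrimitive N f F₁) (h₂ : HasEquivariantPrimitive N f F₂) :
    F₁ = F₂ := sorry

/-- the period map is computed by ANY equivariant primitive, at ANY base point -/
theorem periodMap_apply_of {f : CuspForm (Gamma0 N) 2} {F : ℍ → ℂ}
    (hF : HasEquivariantPrimitive N f F) (γ : Gamma0 N) (z : ℍ) :
    periodMap N f (Additive.ofMul γ) = F ((γ : SL(2, ℤ)) • z) - F z := sorry

theorem periodMap_apply (f : CuspForm (Gamma0 N) 2) (γ : Gamma0 N) (z : ℍ) :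
    periodMap N f (Additive.ofMul γ) = prim f ((γ : SL(2, ℤ)) • z) - prim f z := sorry

theorem periodMap_add (f g : CuspForm (Gamma0 N) 2) :
    periodMap N (f + g) = periodMap N f + periodMap N g := sorry

theorem periodMap_smul (c : ℂ) (f : CuspForm (Gamma0 N) 2) :
    periodMap N (c • f) = c • periodMap N f := sorry

theorem existsPeriodMapLinear (N : ℕ) [NeZero N] : ExistsPeriodMapLinear N := sorry

theorem periodHomPair_apply (f g : CuspForm (Gamma0 N) 2) :
    periodHomPair N (f, g) =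
      (periodMap N f + charInvolution N ℂ ℂ (periodMap N f)) +
        (periodMap N g - charInvolution N ℂ ℂ (periodMap N g)) := sorry

/-! ## Module C: `Parabolic.lean` -/

/-- classification of the elements of `SL(2,ℤ)` with `trace² = 4`: they are `± δ T^m δ⁻¹`. -/
theorem exists_conj_T_zpow (γ : SL(2, ℤ))
    (h : (γ : Matrix (Fin 2) (Fin 2) ℤ).trace ^ 2 = 4) :
    ∃ (δ : SL(2, ℤ)) (m : ℤ), γ = δ * ModularGroup.T ^ m * δ⁻¹ ∨
      γ = -(δ * ModularGroup.T ^ m * δ⁻¹) := sorry

theorem periodMap_mem_parabolicHoms (N : ℕ) [NeZero N] (f : CuspForm (Gamma0 N) 2) :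
    periodMap N f ∈ parabolicHoms ℂ (Gamma0 N) ℂ := sorry

/-- at every cusp `δ∞`, `prim f ∘ δ` is periodic with period `N`
(`δ T^N δ⁻¹ ∈ Γ(N) ≤ Γ₀(N)` is parabolic, so its period vanishes). -/
theorem prim_cusp_periodic (f : CuspForm (Gamma0 N) 2) (δ : SL(2, ℤ)) (w : ℍ) :
    prim f (δ • ((N : ℝ) +ᵥ w)) = prim f (δ • w) := sorry

theorem range_periodHomPair_le (N : ℕ) [NeZero N] :
    LinearMap.range (periodHomPair N) ≤ parabolicHoms ℂ (Gamma0 N) ℂ := sorry

/-! ## Module D: `Involution.lean` : the involution `ι` in terms of `z ↦ -conj z` -/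

/-- `z ↦ -conj z` on the upper half plane -/
def negConj (z : ℍ) : ℍ :=
  ⟨-(starRingEnd ℂ) (z : ℂ), by simpa using z.im_pos⟩

theorem negConj_smul (γ : SL(2, ℤ)) (z : ℍ) :
    negConj (γ • z) = (jConjSL γ) • negConj z := sorry

theorem charInvolution_periodMap_apply (f : CuspForm (Gamma0 N) 2) (γ : Gamma0 N) (z : ℍ) :
    (charInvolution N ℂ ℂ (periodMap N f)) (Additive.ofMul γ) =
      prim f (negConj ((γ : SL(2, ℤ)) • z)) - prim f (negConj z) := sorry

/-! ## Module E: `MaxPrinciple.lean` (E0) and `Injective.lean` (E1) -/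

/-- (E0) Maximum principle on `Γ₀(N)\ℍ*`: a holomorphic `G` on `ℍ` whose real part is
`Γ₀(N)`-invariant and such that `G ∘ δ` is `N`-periodic and has a limit at `i∞` for every
`δ ∈ SL(2,ℤ)` is constant. -/
theorem eq_const_of_re_invariant (N : ℕ) [NeZero N] (G : ℍ → ℂ)
    (hG : ∀ z : ℍ, DifferentiableAt ℂ (G ∘ ofComplex) (z : ℂ))
    (hinv : ∀ γ ∈ Gamma0 N, ∀ z : ℍ, (G (γ • z)).re = (G z).re)
    (hper : ∀ δ : SL(2, ℤ), ∀ z : ℍ, G (δ • ((N : ℝ) +ᵥ z)) = G (δ • z))
    (hlim : ∀ δ : SL(2, ℤ), ∃ L : ℂ, Filter.Tendsto (fun w : ℍ => G (δ • w)) atImInfty (nhds L)) :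
    ∀ z w : ℍ, G z = G w := sorry

/-- (E1) `P_u + ι P_v = 0 ⇒ u = v = 0`: apply (E0) to `G = A + B†` and `G = -i (A - B†)` with
`A = prim u`, `B†(z) = conj (prim v (negConj z))`. -/
theorem periodMap_add_charInvolution_eq_zero {u v : CuspForm (Gamma0 N) 2}
    (h : periodMap N u + charInvolution N ℂ ℂ (periodMap N v) = 0) : u = 0 ∧ v = 0 := sorry

theorem periodHomPair_injective (N : ℕ) [NeZero N] :
    Function.Injective (periodHomPair N) := sorry

/-! ## Module F: `PermOp.lean`, `Shapiro.lean` : dimension bound for parabolic homs (pure algebra) -/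

section Perm
variable {X : Type} [Fintype X] [DecidableEq X]

/-- the permutation operator `v ↦ v ∘ σ⁻¹` on `X → ℂ` -/
def permOp (σ : Equiv.Perm X) : (X → ℂ) →ₗ[ℂ] (X → ℂ) :=
  LinearMap.funLeft ℂ ℂ (σ⁻¹ : Equiv.Perm X)

theorem finrank_ker_one_add_permOp (σ : Equiv.Perm X) (h : σ * σ = 1) :
    2 * Module.finrank ℂ (LinearMap.ker (1 + permOp σ)) + Fintype.card (Function.fixedPoints σ)
      = Fintype.card X := sorry

theorem finrank_ker_one_add_permOp_add_sq (σ : Equiv.Perm X) (h : σ * σ * σ = 1) :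
    3 * Module.finrank ℂ (LinearMap.ker (1 + permOp σ + permOp σ * permOp σ))
      + 2 * Fintype.card (Function.fixedPoints σ) = 2 * Fintype.card X := sorry

end Perm

/-- **Dimension bound** `dim Hom_par(Γ₀(N), ℂ) ≤ μ/6 - fix(S)/2 - 2 fix(ST)/3 - #orb(T) + 2`. -/
theorem finrank_parabolicHoms_le (N : ℕ) [NeZero N] :
    FiniteDimensional ℂ (parabolicHoms ℂ (Gamma0 N) ℂ) ∧
    6 * Module.finrank ℂ (parabolicHoms ℂ (Gamma0 N) ℂ) + 3 * fixS N + 4 * fixU N + 6 * orbT N
      ≤ muN N + 12 := sorry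

/-! ## External inputs: S20 and the combinatorics of `ℙ¹(ℤ/N)` (`S24x/Comb*.lean`, helper36 et al.) -/

theorem s20 (N : ℕ) [NeZero N] :
    (Module.finrank ℂ (CuspForm (Gamma0 N) 2) : ℚ) = genusFormula N := sorry

theorem card_XN (N : ℕ) [NeZero N] : muN N = dedekindPsi N := sorry
theorem card_fixS (N : ℕ) [NeZero N] : fixS N = nuTwo N := sorry
theorem card_fixU (N : ℕ) [NeZero N] : fixU N = nuThree N := sorry
theorem card_orbT (N : ℕ) [NeZero N] : orbT N = cuspCount N := sorry

/-! ## Module G: `Assembly.lean` (compiles from the above; by helper51) -/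

theorem finiteDimensional_cuspForm (N : ℕ) [NeZero N] :
    FiniteDimensional ℂ (CuspForm (Gamma0 N) 2) := by
  obtain ⟨hfd, -⟩ := finrank_parabolicHoms_le N
  let L : CuspForm (Gamma0 N) 2 →ₗ[ℂ] parabolicHoms ℂ (Gamma0 N) ℂ :=
    LinearMap.codRestrict _ ((periodHomPair N).comp (LinearMap.inl ℂ _ _))
      (fun f => range_periodHomPair_le N ⟨_, rfl⟩)
  have hL : Function.Injective L := by
    intro f g hfg
    have h1 : periodHomPair N (f, 0) = periodHomPair N (g, 0) := congrArg Subtype.val hfg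
    have h2 := periodHomPair_injective N h1
    exact (Prod.mk.inj h2).1
  exact FiniteDimensional.of_injective L hL

theorem result_from_spec (N : ℕ) [NeZero N] :
    Function.Injective (periodHomPair N)
      ∧ LinearMap.range (periodHomPair N) = parabolicHoms ℂ (Gamma0 N) ℂ := by
  refine ⟨periodHomPair_injective N, ?_⟩
  obtain ⟨hfd, hle⟩ := finrank_parabolicHoms_le N
  have := finiteDimensional_cuspForm N
  apply Submodule.eq_of_le_of_finrank_le (range_periodHomPair_le N)
  rw [LinearMap.finrank_range_of_inj (periodHomPair_injective N), Module.finrank_prod]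
  -- numerics
  have h20 := s20 N
  rw [genusFormula, ← card_XN, ← card_fixS, ← card_fixU, ← card_orbT] at h20
  have hq : (6 * Module.finrank ℂ (parabolicHoms ℂ (Gamma0 N) ℂ) + 3 * fixS N + 4 * fixU N
      + 6 * orbT N : ℚ) ≤ muN N + 12 := by exact_mod_cast hle
  have : (Module.finrank ℂ (parabolicHoms ℂ (Gamma0 N) ℂ) : ℚ) ≤
      (Module.finrank ℂ (CuspForm (Gamma0 N) 2) + Module.finrank ℂ (CuspForm (Gamma0 N) 2) : ℕ) := by
    push_cast
    linarith
  exact_mod_cast this

end

end Fermat.Agent.S21x.Spec
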